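import Fermat.Agent.GR.RT.Lift.Assembly
import Fermat.Agent.GR.RT.NewProof
import Fermat.Agent.GR.RT.OrdInputProof
import Fermat.Agent.BAD.XH.Torsion
import Fermat.Agent.BAD.Ord.Torsion

/-!
# The inputs on bad reduction, and modularity lifting

The torsion statements of `BAD/XH` and `BAD/Ord` give the four inputs, and these give lifting at
squarefree levels.
-/

set_option autoImplicit false

noncomputable section

open Fermat.GR.RT

namespace Fermat.Top.Rows

variable (p : ℕ) [Fact p.Prime]

/-- Bad reduction away from `p`. -/
theorem newInput : NewInput p :=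
  newInput_of_torsion (fun M q _ _ _ H _ hq hqM => Fermat.BAD.XH.inertiaStatement M q H hq hqM)
    fun M q _ _ _ H _ hq hqM => Fermat.BAD.XH.frobeniusStatement M q H hq hqM

/-- The sign away from `p`. -/
theorem newSignInput : NewSignInput p :=
  newSignInput_of_torsion (fun M q _ _ _ H _ hq hqM => Fermat.BAD.XH.inertiaStatement M q H hq hqM)
    fun M q _ _ _ H _ hq hqM => Fermat.BAD.XH.frobeniusStatement M q H hq hqM

/-- Bad reduction at `p`. -/
theorem ordInput : OrdInput p :=
  haveI : NeZero p := ⟨(Fact.out : p.Prime).ne_zero⟩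
  ordInput_of_torsion (Fermat.BAD.Ord.ordTorsion p)

/-- Bad reduction at `p`, by the value of `U_p`. -/
theorem ordSignInput : OrdSignInput p :=
  haveI : NeZero p := ⟨(Fact.out : p.Prime).ne_zero⟩
  ordSignInput_of_torsion (Fermat.BAD.Ord.ordTorsion p)

/-- **Modularity lifting at squarefree levels.** -/
theorem liftingSf : Fermat.GR.RT.LiftingSfStatement p :=
  liftingSf_of_inputs p (newInput p) (newSignInput p) (ordInput p) (ordSignInput p)

end Fermat.Top.Rows

end
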