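import Fermat.Agent.Top.Rows.Translate
import Fermat.Agent.GR.RT.Lowering
import Fermat.Agent.BAD.AtP.NoEigen
import Fermat.Agent.GR.RT.CharInputProof
import Fermat.Agent.RED.Flat.GammaH

/-!
# Level lowering for the Frey curve, in the form of congruences with point counts

`lowering_odd_of_newInput` and `lowering_at_p_of_newInput` give S43 and S44; `lowering_of_newInput`
serves `NoFrey`.
-/

set_option autoImplicit false

noncomputable section

open WeierstrassCurve.Affine.Point Fermat.GR.RT
open FreyPackage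

namespace Fermat.Top.Rows

local notation "ℚbar" => AlgebraicClosure ℚ

/-- Level lowering at `p ≥ 5` from the input at bad primes. -/
theorem lowering_of_newInput (p : ℕ) [Fact p.Prime] (h5 : 4 < p) (hN : NewInput p) :
    LoweringStatement p :=
  loweringStatement_of_inputs h5 (Fermat.GR.RT.attachInput p) hN
    (Fermat.GR.RT.charInput p) (Fermat.RED.Flat.flatInput p)

variable (P : FreyPackage)

/-- The torsion is modular at a divisor of the level which is prime to `p`. -/
theorem exists_modularOf_not_dvd [Fact P.p.Prime] (hNI : NewInput P.p) {N : ℕ}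
    (hsq : Squarefree N) (hirr : GaloisRepIsIrreducible (K := ℚbar) ℚ P.freyCurve P.p)
    (hmod : P.ModularRepOfLevel N) :
    ∃ M : ℕ, M ∣ N ∧ ¬ P.p ∣ M ∧ ModularOf P.p (freyRep P) M := by
  have h5 : 4 < P.p := by have := P.hp5; omega
  have hmod' := modularOf_of_modularRep P (Nat.pos_of_ne_zero hsq.ne_zero) hmod
  by_cases hpN : P.p ∣ N
  swap
  · exact ⟨N, dvd_rfl, hpN, hmod'⟩
  obtain ⟨M, hM, hmodM⟩ := Fermat.BAD.AtP.mazurAtPTorsion_of_lowering P.p
    (lowering_of_newInput P.p h5 hNI) h5 P.freyCurveInt (Fermat.EC.Frey.Δ_ne_zero P)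
    (frey_isSemistableModel P) (isSemistableResidual_freyRep P hirr)
    (Or.inr (Fermat.EC.Frey.dvd_padicValInt_Δ P P.pp (by omega))) N hsq hpN hmod'
  refine ⟨M, hM.trans (Nat.div_dvd_of_dvd hpN), fun h => ?_, hmodM⟩
  have h2 := Nat.mul_dvd_mul_left P.p (h.trans hM)
  rw [Nat.mul_div_cancel' hpN] at h2
  exact P.pp.ne_one (Nat.isUnit_iff.mp (hsq P.p h2))

/-- **An odd prime leaves the level.** An odd prime `q ≠ p` can be removed from a conductor level at
which the Frey representation is modular. -/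
theorem lowering_odd_of_newInput (hNI : haveI := Fact.mk P.pp; NewInput P.p) {N q : ℕ}
    (hcond : P.IsConductorLevel N) (hq : q.Prime) (hq2 : q ≠ 2) (hqp : q ≠ P.p)
    (hirr : GaloisRepIsIrreducible (K := ℚbar) ℚ P.freyCurve P.p) (hmod : P.ModularRepOfLevel N) :
    ∃ M : ℕ, M ∣ N ∧ ¬ q ∣ M ∧ P.ModularRepOfLevel M := by
  have := Fact.mk P.pp
  have h5 : 4 < P.p := by have := P.hp5; omega
  obtain ⟨M₀, hM₀, hpM₀, hmod₀⟩ := exists_modularOf_not_dvd P hNI hcond.squarefree hirr hmod
  by_cases hqM : q ∣ M₀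
  swap
  · exact ⟨M₀, hM₀, hqM, modularRep_of_modularOf P hmod₀⟩
  have hsq : Squarefree M₀ := hcond.squarefree.squarefree_of_dvd hM₀
  obtain ⟨M, hM, hmodM⟩ := lowering_of_newInput P.p h5 hNI (by omega) (freyRep P)
    (isSemistableResidual_freyRep P hirr) (fun h => absurd h (by omega)) M₀ q hsq hpM₀ hq hqM
    (isResUnramified_freyRep P hq hq2 hqp) hmod₀
  refine ⟨M, (hM.trans (Nat.div_dvd_of_dvd hqM)).trans hM₀, fun h => ?_,
    modularRep_of_modularOf P hmodM⟩
  have h2 := Nat.mul_dvd_mul_left q (h.trans hM)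
  rw [Nat.mul_div_cancel' hqM] at h2
  exact hq.ne_one (Nat.isUnit_iff.mp (hsq q h2))

/-- **`p` leaves the level.** The prime `p` can be removed from a conductor level at which the Frey
representation is modular. -/
theorem lowering_at_p_of_newInput (hNI : haveI := Fact.mk P.pp; NewInput P.p) {N : ℕ}
    (hcond : P.IsConductorLevel N)
    (hirr : GaloisRepIsIrreducible (K := ℚbar) ℚ P.freyCurve P.p) (hmod : P.ModularRepOfLevel N) :
    ∃ M : ℕ, M ∣ N ∧ ¬ P.p ∣ M ∧ P.ModularRepOfLevel M := by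
  have := Fact.mk P.pp
  obtain ⟨M, hM, hpM, hmodM⟩ := exists_modularOf_not_dvd P hNI hcond.squarefree hirr hmod
  exact ⟨M, hM, hpM, modularRep_of_modularOf P hmodM⟩

end Fermat.Top.Rows

end
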