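import Fermat.Agent.Top.Rows.Modular
import Fermat.Agent.Top.Rows.Lowering
import Fermat.Agent.Top.Endgame
import Fermat.Agent.HT.Mazur.Assemble
import Fermat.Agent.HT.Mazur.AtPOne

/-!
# No Frey package, from lifting and the inputs on bad reduction

`noFrey_of_inputs`: irreducible (`HT/Mazur`), modular (`Modular`), so lowered to level two
(`Lowering`), where no form exists. Used for S06, S03 and S45.
-/

set_option autoImplicit false

noncomputable section

open Fermat.GR.RT
open FreyPackage

namespace Fermat.Top.Rows

variable [Fact (Nat.Prime 3)] [Fact (Nat.Prime 5)]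

/-- **No Frey package.** Given lifting at three and five and the inputs, there is no Frey
package. -/
theorem noFrey_of_inputs (h3 : LiftingSfStatement 3) (h5 : LiftingSfStatement 5)
    (hN : ∀ (p : ℕ) [Fact p.Prime], NewInput p) (hOrd : OrdInput 3) (P : FreyPackage) : False :=
  noFreyPackage P
    (Fermat.HT.Mazur.frey_irreducible_of_atP (fun _ _ _ _ => Fermat.HT.Mazur.atPHyp) P)
    (modSf_of_inputs h3 h5 (hN 3) hOrd P.freyCurveInt (Fermat.EC.Frey.Δ_ne_zero P)
      (fun _ hq hd => Fermat.EC.Frey.semistable P hq hd))
    (fun p _ hp => lowering_of_newInput p hp (hN p))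
    (fun p _ hp => Fermat.BAD.AtP.mazurAtPTorsion_of_lowering p
      (lowering_of_newInput p hp (hN p)) hp)

end Fermat.Top.Rows

end
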