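import Fermat.Agent.Top.Modularity
import Fermat.Agent.RM.Main
import Fermat.Agent.GR.AttachProof.Main
import Fermat.Agent.RED.Flat.GammaH
import Fermat.Agent.LT3.Main.Main
import Fermat.Agent.EC.Frey

/-!
# Modularity of semistable curves and of the Frey curve, from lifting at 3 and 5 and the inputs at 3

`isModular_of_inputs` and `frey_isModular_of_inputs`, the rows S60 and S04.
-/

set_option autoImplicit false

noncomputable section

open Fermat.GR.RT

namespace Fermat.Top.Rows

variable [Fact (Nat.Prime 3)] [Fact (Nat.Prime 5)]

omit [Fact (Nat.Prime 5)] in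
/-- The supersingular base from the inputs at three. -/
theorem supersingularBase_of_inputs (hN : NewInput 3) (hOrd : OrdInput 3) :
    SupersingularBase :=
  Fermat.RM.supersingularBase (fun K L => Fermat.LT3.weightOneDataStatement K L)
    (Fermat.GR.RT.attachInput 3) hN hOrd (Fermat.RED.Flat.flatInput 3)

/-- **Semistable models are modular.** Given lifting at three and five and the inputs at three,
every semistable model is modular (`ModSf`). -/
theorem modSf_of_inputs (h3 : LiftingSfStatement 3) (h5 : LiftingSfStatement 5)
    (hN : NewInput 3) (hOrd : OrdInput 3) (W : WeierstrassCurve ℤ) (hΔ : W.Δ ≠ 0)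
    (hW : W.IsSemistableModel) : ModSf W :=
  modSf_of_semistable h3 h5 (supersingularBase_of_inputs hN hOrd) W hΔ hW

/-- **The modularity of semistable curves.** -/
theorem isModular_of_inputs (h3 : LiftingSfStatement 3) (h5 : LiftingSfStatement 5)
    (hN : NewInput 3) (hOrd : OrdInput 3) (W : WeierstrassCurve ℤ) (hΔ : W.Δ ≠ 0)
    (hW : W.IsSemistableModel) : (W.map (Int.castRingHom ℚ)).IsModular :=
  ⟨W, ⟨1, one_smul _ _⟩, (modSf_of_inputs h3 h5 hN hOrd W hΔ hW).isModularModel⟩

/-- **The modularity of the Frey curve.** Given lifting at three and five and the inputs at three,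
the Frey curve is modular. -/
theorem frey_isModular_of_inputs (h3 : LiftingSfStatement 3) (h5 : LiftingSfStatement 5)
    (hN : NewInput 3) (hOrd : OrdInput 3) (P : FreyPackage) : P.freyCurve.IsModular := by
  have h := isModular_of_inputs h3 h5 hN hOrd P.freyCurveInt (Fermat.EC.Frey.Δ_ne_zero P)
    (fun _ hq hd => Fermat.EC.Frey.semistable P hq hd)
  rwa [Fermat.EC.Frey.map_freyCurveInt] at h

end Fermat.Top.Rows

end
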