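import Mathlib
import Fermat.Prelude.Def_CuspForm_HeckeGaloisRepDatum
import Fermat.Agent.GR.RT.Gamma0Bridge
import Fermat.Agent.GR.RT.Points
import Fermat.Agent.GR.ES.DVRExt
import Fermat.Agent.MC.IntStructure

/-!
# Row 32 (S33): the points of a Hecke-Galois datum as eigen systems of the level

A point of the coefficient ring extends to the full Hecke ring of the level, so it has values in the
integers of a finite extension, with an eigen system of all operators.

`exists_point_data`, applied at every point by `S33Cond`.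
-/

set_option autoImplicit false

noncomputable section

open IsLocalRing CongruenceSubgroup

namespace Fermat.Top.Rows

open Fermat.GR.RT Fermat.HM

/-- An algebra map out of a finite local algebra into a local one is local. -/
theorem isLocalHom_algHom_finite {O T B : Type} [CommRing O] [IsLocalRing O] [CommRing T]
    [IsLocalRing T] [Algebra O T] [Module.Finite O T] [CommRing B] [IsLocalRing B] [Algebra O B]
    [IsLocalHom (algebraMap O B)] (ψ : T →ₐ[O] B) : IsLocalHom (ψ : T →+* B) := by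
  refine ⟨fun a ha => ?_⟩
  by_contra hna
  let θ : T →+* ResidueField B := (residue B).comp (ψ : T →+* B)
  have : (RingHom.ker θ).IsPrime := RingHom.ker_isPrime θ
  have : Algebra.IsIntegral O T := Algebra.IsIntegral.of_finite O T
  have hcomap : (RingHom.ker θ).comap (algebraMap O T) = maximalIdeal O := by
    refine le_antisymm (le_maximalIdeal (Ideal.IsPrime.ne_top inferInstance)) fun o ho => ?_
    rw [Ideal.mem_comap, RingHom.mem_ker]
    change residue B (ψ (algebraMap O T o)) = 0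
    rw [AlgHom.commutes, residue_eq_zero_iff]
    exact map_nonunit (algebraMap O B) _ ho
  have hmax : (RingHom.ker θ).IsMaximal :=
    Ideal.isMaximal_of_isIntegral_of_isMaximal_comap _ (hcomap ▸ maximalIdeal.isMaximal O)
  have hmem : a ∈ RingHom.ker θ := (eq_maximalIdeal hmax).symm ▸ hna
  exact (residue_eq_zero_iff _).mp (RingHom.mem_ker.mp hmem) ha

variable {N : ℕ} [NeZero N] {S : Finset ℕ}

/-- The Hecke labels of `Γ₀(N)` as operators. -/
def fullLabel (N : ℕ) [NeZero N] (i : Nat.Primes ⊕ (ZMod N)ˣ) :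
    CuspForm.heckeAlgebra N 2 (∅ : Set ℕ) :=
  Sum.elim (fun ℓ : Nat.Primes =>
    if h : (ℓ : ℕ) ∣ N then CuspForm.heckeAlgebra.U ℓ.2 h (Set.notMem_empty _)
    else CuspForm.heckeAlgebra.T ℓ.2 h (Set.notMem_empty _)) (fun _ => 1) i

/-- `formOp` on the lift of a form is the lift of the operator of its label. -/
theorem formOp_fullLabel (i : Nat.Primes ⊕ (ZMod N)ˣ) (f : CuspForm (Gamma0 N) 2) :
    formOp N ⊤ i (toTop N f) = toTop N ((fullLabel N i).1 f) := by
  rcases i with ℓ | u
  · have : Fact (ℓ : ℕ).Prime := ⟨ℓ.2⟩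
    simp only [fullLabel, Sum.elim_inl]
    split_ifs with h
    · exact coe_formHecke_top_of_dvd N h f
    · exact coe_formHecke_top_of_not_dvd N h f
  · exact (formDia_top N u _).trans rfl

/-- The evaluation of the labels in the Hecke algebra computes the action on forms. -/
theorem formAct_aeval_fullLabel (P : MvPolynomial (Nat.Primes ⊕ (ZMod N)ˣ) ℤ)
    (f : CuspForm (Gamma0 N) 2) :
    formAct N ⊤ P (toTop N f) =
      toTop N ((MvPolynomial.aeval (R := ℤ) (fullLabel N) P).1 f) := by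
  induction P using MvPolynomial.induction_on generalizing f with
  | C a =>
    rw [eq_intCast, map_intCast, map_intCast, Module.End.intCast_apply,
      show ((a : CuspForm.heckeAlgebra N 2 (∅ : Set ℕ))).1 f = a • f by simp, map_zsmul]
  | add P Q hP hQ =>
    rw [map_add, LinearMap.add_apply, hP, hQ, map_add (MvPolynomial.aeval _), ← map_add (toTop N)]
    rfl
  | mul_X P i hP =>
    rw [map_mul, Module.End.mul_apply, formAct_X, formOp_fullLabel, hP, map_mul,
      MvPolynomial.aeval_X]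
    rfl

/-- **A point of the coefficient ring is an eigen system of the level.** -/
theorem exists_point_data (hNS : ∀ q : ℕ, q.Prime → q ∣ N → q ∈ S)
    {O : Type} [CommRing O] [IsDomain O] [IsDiscreteValuationRing O]
    [IsAdicComplete (maximalIdeal O) O] [Finite (ResidueField O)] [CharZero O]
    {T : Type} [CommRing T] [IsLocalRing T] [Algebra O T] [Module.Finite O T]
    (π : CuspForm.heckeAlgebra N 2 (↑S : Set ℕ) →+* T)
    (hgen : Algebra.adjoin O (Set.range π) = ⊤) (ψ : T →ₐ[O] AlgebraicClosure (FractionRing O)) :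
    ∃ (O' : Type) (_ : CommRing O') (_ : IsDomain O') (_ : IsDiscreteValuationRing O')
      (_ : IsAdicComplete (maximalIdeal O') O') (_ : Finite (ResidueField O')) (_ : CharZero O')
      (_ : Algebra O O') (_ : IsLocalHom (algebraMap O O'))
      (y : MvPolynomial (Nat.Primes ⊕ (ZMod N)ˣ) ℤ →+* O') (_ : IsPoint N ⊤ y)
      (ψ' : T →ₐ[O] O'), IsLocalHom (ψ' : T →+* O') ∧ (∀ t, ψ' t = 0 → ψ t = 0) ∧
        ∀ (ℓ : ℕ) (hℓ : ℓ.Prime) (hℓN : ¬ ℓ ∣ N) (hℓS : ℓ ∉ (↑S : Set ℕ)),
          tVal y ℓ = ψ' (π (CuspForm.heckeAlgebra.T hℓ hℓN hℓS)) := by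
  classical
  have : Module.Finite ℤ (CuspForm.heckeAlgebra N 2 (∅ : Set ℕ)) :=
    Fermat.GR.Lifting.moduleFinite_hecke (Fermat.MC.hasIntegralBasis N)
  let i : CuspForm.heckeAlgebra N 2 (↑S : Set ℕ) →+* CuspForm.heckeAlgebra N 2 (∅ : Set ℕ) :=
    (Subalgebra.inclusion (CuspForm.heckeAlgebra_mono (N := N) (k := 2)
      (Set.empty_subset (↑S : Set ℕ)))).toRingHom
  -- extend the point to the full Hecke ring
  obtain ⟨χ, hχ⟩ := Fermat.GR.exists_extend_algClosed (Ω := AlgebraicClosure (FractionRing O)) i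
    (Subalgebra.inclusion_injective _)
    (fun w => RingHom.IsIntegral.tower_top (Int.castRingHom _) i
      (fun w => by
        rw [show i.comp (Int.castRingHom _) = algebraMap ℤ _ from RingHom.ext_int _ _]
        exact Algebra.IsIntegral.isIntegral (R := ℤ) w) w)
    ((ψ : T →+* AlgebraicClosure (FractionRing O)).comp π)
  let x : MvPolynomial (Nat.Primes ⊕ (ZMod N)ˣ) ℤ →+* AlgebraicClosure (FractionRing O) :=
    χ.comp (MvPolynomial.aeval (R := ℤ) (fullLabel N)).toRingHom
  have hx : IsPoint N ⊤ x := ⟨fun P hP => by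
    have h0 : MvPolynomial.aeval (R := ℤ) (fullLabel N) P = 0 :=
      Subtype.ext (LinearMap.ext fun f => (toTop N).injective (by
        rw [← formAct_aeval_fullLabel, hP, LinearMap.zero_apply, ZeroMemClass.coe_zero,
          LinearMap.zero_apply, map_zero]))
    change χ (MvPolynomial.aeval (R := ℤ) (fullLabel N) P) = 0
    rw [h0, map_zero]⟩
  obtain ⟨@⟨O', i1, i2, i3, i4, i5, i6, i7, i8, i9, _⟩, y, hy, j, hj, hjy⟩ :=
    exists_dvr_point N ⊤ O hx
  have hT : ∀ (ℓ : ℕ) (hℓ : ℓ.Prime) (hℓN : ¬ ℓ ∣ N) (hℓS : ℓ ∉ (↑S : Set ℕ)),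
      j (tVal y ℓ) = ψ (π (CuspForm.heckeAlgebra.T hℓ hℓN hℓS)) := by
    intro ℓ hℓ hℓN hℓS
    rw [tVal, dif_pos hℓ, show j (y (MvPolynomial.X (Sum.inl ⟨ℓ, hℓ⟩))) =
      x (MvPolynomial.X (Sum.inl ⟨ℓ, hℓ⟩)) from RingHom.congr_fun hjy _]
    change χ (MvPolynomial.aeval (R := ℤ) (fullLabel N) (MvPolynomial.X (Sum.inl ⟨ℓ, hℓ⟩))) = _
    rw [MvPolynomial.aeval_X]
    refine Eq.trans (congrArg χ ?_) (RingHom.congr_fun hχ (CuspForm.heckeAlgebra.T hℓ hℓN hℓS))
    change (if h : ℓ ∣ N then CuspForm.heckeAlgebra.U hℓ h (Set.notMem_empty _)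
      else CuspForm.heckeAlgebra.T hℓ h (Set.notMem_empty _)) = _
    rw [dif_neg hℓN]
    rfl
  -- the point takes its values in the integers `O'`, as the image of `π` generates
  have hanemic : ∀ t, ψ (π t) ∈ j.range := by
    rintro ⟨t, ht⟩
    refine Algebra.adjoin_induction (p := fun z hz => ψ (π ⟨z, hz⟩) ∈ j.range) ?_
      (fun k => ?_) (fun a b ha hb ea eb => ?_) (fun a b ha hb ea eb => ?_) ht
    · rintro z (⟨ℓ, hℓ, hℓN, hℓS, rfl⟩ | ⟨q, hqN, hq, hqS, rfl⟩)
      · exact ⟨tVal y ℓ, hT ℓ hℓ hℓN hℓS⟩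
      · exact absurd (hNS q hq hqN) (by simpa using hqS)
    · change ψ (π (algebraMap ℤ (CuspForm.heckeAlgebra N 2 (↑S : Set ℕ)) k)) ∈ _
      rw [eq_intCast, map_intCast, map_intCast]
      exact intCast_mem _ k
    · rw [show (⟨a + b, _⟩ : CuspForm.heckeAlgebra N 2 (↑S : Set ℕ)) = ⟨a, ha⟩ + ⟨b, hb⟩ from rfl,
        map_add, map_add]
      exact add_mem ea eb
    · rw [show (⟨a * b, _⟩ : CuspForm.heckeAlgebra N 2 (↑S : Set ℕ)) = ⟨a, ha⟩ * ⟨b, hb⟩ from rfl,
        map_mul, map_mul]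
      exact mul_mem ea eb
  have hmem : ∀ t : T, ψ t ∈ j.range := by
    intro t
    have ht : t ∈ Algebra.adjoin O (Set.range π) := hgen ▸ Algebra.mem_top
    induction ht using Algebra.adjoin_induction with
    | mem z hz => obtain ⟨t, rfl⟩ := hz; exact hanemic t
    | algebraMap o => rw [AlgHom.commutes]; exact j.range.algebraMap_mem o
    | add a b _ _ ea eb => rw [map_add]; exact add_mem ea eb
    | mul a b _ _ ea eb => rw [map_mul]; exact mul_mem ea eb
  let ψ' : T →ₐ[O] O' := (AlgEquiv.ofInjective j hj).symm.toAlgHom.comp (ψ.codRestrict j.range hmem)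
  have hψ' : ∀ t, j (ψ' t) = ψ t := fun t =>
    congrArg Subtype.val ((AlgEquiv.ofInjective j hj).apply_symm_apply
      (ψ.codRestrict j.range hmem t))
  refine ⟨O', i1, i2, i3, i4, i5, i6, i7, i9, y, hy, ψ', isLocalHom_algHom_finite ψ',
    fun t ht => by rw [← hψ', ht, map_zero], fun ℓ hℓ hℓN hℓS => hj ?_⟩
  rw [hT ℓ hℓ hℓN hℓS, hψ']

end Fermat.Top.Rows

end
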