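import Mathlib
import Fermat.Agent.Top.Rows.S33Point
import Fermat.Agent.GR.RT.HeckeReduced
import Fermat.Agent.GR.RT.OrdGlue
import Fermat.Agent.GR.RT.LowerTangentBound
import Fermat.Agent.GR.RT.OrdFlatProof
import Fermat.Agent.GR.RT.LiftInputs
import Fermat.Agent.GR.ES.Determined
import Fermat.Agent.GR.AttachProof.Main
import Fermat.Agent.HT.Unipotent

/-!
# Row 32 (S33): Hecke representations are ordinary at `p` exactly dividing the level

For odd `p`, a residual representation ordinary at `p` and all primes of the level in `S`: at each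
point of the coefficient ring the system is new or old at `p`, and ordinary in both cases;
the stable lines are cut out by one projection, so they glue.

`s33_of_ordInput`, with the input at `p` proved in `Inputs`.
-/

set_option autoImplicit false
set_option linter.unusedSectionVars false

noncomputable section

open IsLocalRing

namespace Fermat.Top.Rows

open Fermat.GR Fermat.GR.RT

local notation "ℚbar" => AlgebraicClosure ℚ
local notation "Γℚ" => (AlgebraicClosure ℚ ≃ₐ[ℚ] AlgebraicClosure ℚ)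
local notation "M2" R => Matrix (Fin 2) (Fin 2) R

/-- A map of rings carries a spanning family of matrices to a spanning one. -/
theorem span_mapHom_eq_top {T B : Type} [CommRing T] [CommRing B] (f : T →+* B)
    {ρ : Γℚ →* M2 T} (h : Submodule.span T (Set.range ρ) = ⊤) :
    Submodule.span B (Set.range (mapHom f ρ)) = ⊤ := by
  have hY : ∀ Y ∈ Submodule.span T (Set.range ρ),
      f.mapMatrix Y ∈ Submodule.span B (Set.range (mapHom f ρ)) := by
    intro Y hY
    induction hY using Submodule.span_induction with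
    | mem Y hY => obtain ⟨g, rfl⟩ := hY; exact Submodule.subset_span ⟨g, rfl⟩
    | zero => rw [map_zero]; exact zero_mem _
    | add Y Y' _ _ hY hY' => rw [map_add]; exact add_mem hY hY'
    | smul a Y _ hY =>
      rw [show f.mapMatrix (a • Y) = f a • f.mapMatrix Y by ext i j; simp]
      exact Submodule.smul_mem _ _ hY
  refine eq_top_iff.mpr fun X _ => ?_
  rw [Matrix.matrix_eq_sum_single X]
  refine Submodule.sum_mem _ fun i _ => Submodule.sum_mem _ fun j _ => ?_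
  rw [show Matrix.single i j (X i j) = X i j • f.mapMatrix (Matrix.single i j (1 : T)) by
    ext a b; simp [Matrix.single_apply]]
  exact Submodule.smul_mem _ _ (hY _ (h ▸ Submodule.mem_top))

section Point

variable {p : ℕ} [hp : Fact p.Prime] {N : ℕ} [NeZero N] {S : Finset ℕ}
  {O : Type} [CommRing O] [IsDomain O] [IsDiscreteValuationRing O]
  [IsAdicComplete (maximalIdeal O) O] [Finite (ResidueField O)] [CharZero O]
  {T : Type} [CommRing T] [IsLocalRing T] [IsNoetherianRing T]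
  [IsAdicComplete (maximalIdeal T) T] [Algebra O T] [IsLocalHom (algebraMap O T)]
  [Module.Finite O T]
  {O' : Type} [CommRing O'] [IsDomain O'] [IsDiscreteValuationRing O']
  [IsAdicComplete (maximalIdeal O') O'] [Finite (ResidueField O')] [CharZero O']

/-- An attached representation of a level `M ∣ N` with the same values off `S` has the same traces
and determinants. -/
private theorem trace_det_eq_of_isAttached (hpO' : (p : O') ∈ maximalIdeal O')
    (hNS : ∀ q : ℕ, q.Prime → q ∣ N → q ∈ S) (hpS : p ∈ S) {ρ : Γℚ →* M2 O'} (hρ : MatCont ρ)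
    {y : MvPolynomial (Nat.Primes ⊕ (ZMod N)ˣ) ℤ →+* O'}
    (hρfrob : ∀ (ℓ : ℕ), ℓ.Prime → ℓ ∉ S → ∀ P : ValuationSubring ℚbar, P.LiesOverPrime ℓ →
      ∀ φ : Γℚ, P.IsFrobeniusAt φ ℓ → (ρ φ).trace = tVal y ℓ ∧ (ρ φ).det = (ℓ : O'))
    {M : ℕ} [NeZero M] {z : MvPolynomial (Nat.Primes ⊕ (ZMod M)ˣ) ℤ →+* O'} {r : Γℚ →* M2 O'}
    (hz : IsPoint M ⊤ z) (hr : IsAttached p z r) (hMN : M ∣ N)
    (hzy : ∀ ℓ : ℕ, ℓ.Prime → ℓ ∉ S → tVal z ℓ = tVal y ℓ) :
    (∀ g, (ρ g).trace = (r g).trace) ∧ (∀ g, (ρ g).det = (r g).det) := by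
  have : IsLocalHom (algebraMap O' O') := ⟨fun a ha => by simpa using ha⟩
  have hloc : ∀ ℓ : ℕ, ℓ.Prime → ℓ ∉ S → ∀ P : ValuationSubring ℚbar, P.LiesOverPrime ℓ →
      ∀ φ : Γℚ, P.IsFrobeniusAt φ ℓ →
        (r φ).trace = tVal y ℓ ∧ (r φ).det = (ℓ : O') := by
    intro ℓ hℓ hℓS P hP φ hφ
    have hℓM : ¬ ℓ ∣ M := fun e => hℓS (hNS ℓ hℓ (e.trans hMN))
    obtain ⟨h1, h2⟩ := hr.frobenius ℓ hℓ (fun e => (hℓ.dvd_mul.mp e).elim hℓM fun e' =>
      hℓS ((Nat.prime_dvd_prime_iff_eq hℓ hp.out).mp e' ▸ hpS)) P hP φ hφ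
    have he : eVal z ℓ = 1 := by
      rw [eVal, dif_pos (hℓ.coprime_iff_not_dvd.mpr hℓM), hz.dia_eq_one (Subgroup.mem_top _)]
    rw [he, mul_one, hzy ℓ hℓ hℓS] at h1
    rw [he, mul_one] at h2
    exact ⟨h1, h2⟩
  refine ⟨trace_eq_of_frobenius hρ hr.cont S fun ℓ hℓ hℓS P hP φ hφ =>
    ⟨((hρfrob ℓ hℓ hℓS P hP φ hφ).1).trans (hloc ℓ hℓ hℓS P hP φ hφ).1.symm,
      ((hρfrob ℓ hℓ hℓS P hP φ hφ).2).trans (hloc ℓ hℓ hℓS P hP φ hφ).2.symm⟩, fun g => ?_⟩
  rw [det_eq_cycO hpO' hρ S (fun ℓ hℓ hℓS P hP φ hφ => (hρfrob ℓ hℓ hℓS P hP φ hφ).2) g,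
    det_eq_cycO hpO' hr.cont S (fun ℓ hℓ hℓS P hP φ hφ => (hloc ℓ hℓ hℓS P hP φ hφ).2) g]

/-- An ordinary basis of a representation with the same traces and determinants gives the
relations. -/
private theorem lineRels_of_ordBasis {A : ValuationSubring ℚbar} {ρ r : Γℚ →* M2 O'} {σ₀ : Γℚ}
    (hσ₀ : σ₀ ∈ A.inertiaSubgroupIn ℚ) {c : O'} (hc : c * ((ρ σ₀).det - 1) = 1)
    (hspan : Submodule.span O' (Set.range ρ) = ⊤)
    (htr : ∀ g, (ρ g).trace = (r g).trace) (hdet : ∀ g, (ρ g).det = (r g).det) {P : (M2 O')ˣ}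
    (h10 : ∀ σ ∈ A.decompositionSubgroup ℚ, ((P : M2 O') * r σ * (↑P⁻¹ : M2 O')) 1 0 = 0)
    (h11 : ∀ σ ∈ A.inertiaSubgroupIn ℚ, ((P : M2 O') * r σ * (↑P⁻¹ : M2 O')) 1 1 = 1) :
    LineRels A ρ σ₀ c :=
  LineRels.of_trace_eq (lineRels_of_tri h10 h11 (Fermat.FLAT.inertia_le_decomposition A hσ₀) hσ₀
      (by rw [← hdet σ₀, hc]) fun _ hσ => Fermat.FLAT.inertia_le_decomposition A hσ)
    hspan htr (hdet σ₀)

/-- With the traces of a representation of spanning reduction, the reduction is conjugate to it and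
spans. -/
private theorem exists_residue_conj {ρ r : Γℚ →* M2 O'}
    (hspan : Submodule.span (ResidueField O') (Set.range (mapHom (residue O') ρ)) = ⊤)
    (htr : ∀ g, (ρ g).trace = (r g).trace) :
    ∃ P : (M2 (ResidueField O'))ˣ,
      (∀ g, (r g).map (residue O') =
        (↑P⁻¹ : M2 (ResidueField O')) * mapHom (residue O') ρ g * (P : M2 (ResidueField O'))) ∧
      Submodule.span (ResidueField O') (Set.range fun g => (r g).map (residue O')) = ⊤ := by
  obtain ⟨P, hP⟩ := Fermat.GR.RT.exists_conj_of_trace_eq (mapHom (residue O') ρ)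
    (mapHom (residue O') r) hspan fun g => by
      change ((residue O').mapMatrix (ρ g)).trace = ((residue O').mapMatrix (r g)).trace
      have hmt : ∀ X : M2 O', ((residue O').mapMatrix X).trace = residue O' X.trace := fun X => by
        simp [Matrix.trace_fin_two]
      rw [hmt, hmt, htr]
  have hr : ∀ g, (r g).map (residue O') =
      (↑P⁻¹ : M2 (ResidueField O')) * mapHom (residue O') ρ g * (P : M2 (ResidueField O')) :=
    fun g => by
      rw [mul_assoc]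
      change (mapHom (residue O') r) g = _
      rw [← hP, Units.inv_mul_cancel_left]
  exact ⟨P, hr, span_conj_eq_top P⁻¹ (fun g => by rw [inv_inv]; exact hr g) hspan⟩

/-- A basis in which the reduction over `T` is triangular gives one in which that of a
representation with the same traces is. -/
private theorem exists_residual_tri {A : ValuationSubring ℚbar} {ρT : Γℚ →* M2 T} (ψ : T →+* O')
    [IsLocalHom ψ] {r : Γℚ →* M2 O'}
    (hspan : Submodule.span (ResidueField O') (Set.range (mapHom (residue O') (mapHom ψ ρT))) = ⊤)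
    (htr : ∀ g, (mapHom ψ ρT g).trace = (r g).trace) (U : (M2 (ResidueField T))ˣ)
    (hU10 : ∀ σ ∈ A.decompositionSubgroup ℚ,
      ((↑U⁻¹ : M2 (ResidueField T)) * (ρT σ).map (residue T) * (U : M2 (ResidueField T))) 1 0 = 0)
    (hU11 : ∀ σ ∈ A.inertiaSubgroupIn ℚ,
      ((↑U⁻¹ : M2 (ResidueField T)) * (ρT σ).map (residue T) * (U : M2 (ResidueField T))) 1 1 = 1) :
    ∃ V : (M2 (ResidueField O'))ˣ,
      (∀ σ ∈ A.decompositionSubgroup ℚ, ((↑V⁻¹ : M2 (ResidueField O')) *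
        (r σ).map (residue O') * (V : M2 (ResidueField O'))) 1 0 = 0) ∧
      ∀ σ ∈ A.inertiaSubgroupIn ℚ, ((↑V⁻¹ : M2 (ResidueField O')) *
        (r σ).map (residue O') * (V : M2 (ResidueField O'))) 1 1 = 1 := by
  obtain ⟨P, hr, -⟩ := exists_residue_conj hspan htr
  set g' := (ResidueField.map ψ).mapMatrix (m := Fin 2) with hg'
  have hag : ∀ g, mapHom (residue O') (mapHom ψ ρT) g = g' ((ρT g).map (residue T)) := fun g => by
    change ((ρT g).map ψ).map (residue O') = ((ρT g).map (residue T)).map (ResidueField.map ψ)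
    ext i j
    simp [ResidueField.map_residue]
  let V : (M2 (ResidueField O'))ˣ := P⁻¹ * Units.map g'.toMonoidHom U
  have hV : ∀ σ, (↑V⁻¹ : M2 (ResidueField O')) * (r σ).map (residue O') *
      (V : M2 (ResidueField O')) = g' ((↑U⁻¹ : M2 (ResidueField T)) * (ρT σ).map (residue T) *
        (U : M2 (ResidueField T))) := fun σ => by
    rw [hr, hag, map_mul, map_mul]
    simp only [V, _root_.mul_inv_rev, inv_inv, Units.val_mul, mul_assoc]
    rw [Units.mul_inv_cancel_left, Units.mul_inv_cancel_left]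
    rfl
  exact ⟨V, fun σ hσ => by
      rw [hV, hg', RingHom.mapMatrix_apply, Matrix.map_apply, hU10 σ hσ, map_zero],
    fun σ hσ => by rw [hV, hg', RingHom.mapMatrix_apply, Matrix.map_apply, hU11 σ hσ, map_one]⟩

/-- **The relations at one point.** The specialisation of the Hecke representation at a congruent
system satisfies `LineRels` at `p`. -/
theorem lineRels_point (hp2 : p ≠ 2) (hOrd : OrdInput p) (hN : p ∣ N ∧ ¬ p ^ 2 ∣ N)
    (hNS : ∀ q : ℕ, q.Prime → q ∣ N → q ∈ S)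
    (π : CuspForm.heckeAlgebra N 2 (↑S : Set ℕ) →+* T) (ρT : Γℚ →* M2 T) (hcont : MatCont ρT)
    (hfrobT : ∀ (ℓ : ℕ) (hℓ : ℓ.Prime) (hℓN : ¬ ℓ ∣ N) (hℓS : ℓ ∉ (↑S : Set ℕ)),
      ∀ P : ValuationSubring ℚbar, P.LiesOverPrime ℓ → ∀ φ : Γℚ, P.IsFrobeniusAt φ ℓ →
        (ρT φ).trace = π (CuspForm.heckeAlgebra.T hℓ hℓN hℓS) ∧ (ρT φ).det = (ℓ : T))
    (hspanT : Submodule.span T (Set.range ρT) = ⊤)
    {A : ValuationSubring ℚbar} (hA : A.LiesOverPrime p) (U : (M2 (ResidueField T))ˣ)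
    (hU10 : ∀ σ ∈ A.decompositionSubgroup ℚ,
      ((↑U⁻¹ : M2 (ResidueField T)) * (ρT σ).map (residue T) * (U : M2 (ResidueField T))) 1 0 = 0)
    (hU11 : ∀ σ ∈ A.inertiaSubgroupIn ℚ,
      ((↑U⁻¹ : M2 (ResidueField T)) * (ρT σ).map (residue T) * (U : M2 (ResidueField T))) 1 1 = 1)
    {σ₀ : Γℚ} (hσ₀ : σ₀ ∈ A.inertiaSubgroupIn ℚ) {c : T} (hc : c * ((ρT σ₀).det - 1) = 1)
    {y : MvPolynomial (Nat.Primes ⊕ (ZMod N)ˣ) ℤ →+* O'} (hy : IsPoint N ⊤ y) (ψ : T →+* O')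
    (hψ : IsLocalHom ψ) (hpO' : (p : O') ∈ maximalIdeal O')
    (hval : ∀ (ℓ : ℕ) (hℓ : ℓ.Prime) (hℓN : ¬ ℓ ∣ N) (hℓS : ℓ ∉ (↑S : Set ℕ)),
      tVal y ℓ = ψ (π (CuspForm.heckeAlgebra.T hℓ hℓN hℓS))) :
    LineRels A (mapHom ψ ρT) σ₀ (ψ c) := by
  classical
  have := hψ
  have : IsLocalHom (algebraMap O' O') := ⟨fun a ha => by simpa using ha⟩
  have hpS : p ∈ S := hNS p hp.out hN.1
  obtain ⟨K', hK⟩ := hN.1
  rw [mul_comm] at hK
  have hqK' : ¬ p ∣ K' := fun h => hN.2 (by rw [hK, pow_two]; exact Nat.mul_dvd_mul_right h p)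
  set ρ := mapHom ψ ρT
  have hρ : MatCont ρ := matCont_mapHom hcont ψ hψ
  have hρfrob : ∀ (ℓ : ℕ) (hℓ : ℓ.Prime), ℓ ∉ S → ∀ P : ValuationSubring ℚbar, P.LiesOverPrime ℓ →
      ∀ φ : Γℚ, P.IsFrobeniusAt φ ℓ → (ρ φ).trace = tVal y ℓ ∧ (ρ φ).det = (ℓ : O') := by
    intro ℓ hℓ hℓS P hP φ hφ
    have hℓN : ¬ ℓ ∣ N := fun e => hℓS (hNS ℓ hℓ e)
    obtain ⟨h1, h2⟩ := hfrobT ℓ hℓ hℓN hℓS P hP φ hφ
    refine ⟨?_, ?_⟩
    · rw [hval ℓ hℓ hℓN hℓS, ← h1]
      change ((ψ : T →+* O').mapMatrix (ρT φ)).trace = _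
      simp [Matrix.trace_fin_two]
    · change ((ψ : T →+* O').mapMatrix (ρT φ)).det = _
      rw [← RingHom.map_det, h2, map_natCast]
  have hspan : Submodule.span O' (Set.range ρ) = ⊤ := span_mapHom_eq_top ψ hspanT
  have hspan' := span_mapHom_eq_top (residue O') hspan
  have hcψ : ψ c * ((ρ σ₀).det - 1) = 1 := by
    rw [show (ρ σ₀).det = ψ (ρT σ₀).det from (RingHom.map_det ψ _).symm, ← map_one ψ, ← map_sub,
      ← map_mul, hc]
  obtain ⟨r, hr⟩ := attachInput p N ⊤ (Subgroup.mem_top _) O' hpO' y hy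
  by_cases hold : IsOldAt N (⊤ : Subgroup (ZMod N)ˣ) y p
  swap
  -- the new case: the ordinary input at `p`
  · obtain ⟨htr, hdet⟩ :=
      trace_det_eq_of_isAttached hpO' hNS hpS hρ hρfrob hy hr dvd_rfl fun _ _ _ => rfl
    obtain ⟨P, h10, h11, -⟩ := hOrd N ⊤ (Subgroup.mem_top _) hp2 K' hK.symm hqK'
      (fun u _ => Subgroup.mem_top u) O' hpO' y hy hold r hr
      (exists_residue_conj hspan' htr).choose_spec.2 A hA
    exact lineRels_of_ordBasis hσ₀ hcψ hspan htr hdet h10 h11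
  -- the old case: good ordinary reduction below
  obtain ⟨M, hM0, hd, hMp, z, hz, hzv, -⟩ := hold
  have := hM0
  rw [Subgroup.map_top_of_surjective _ (ZMod.unitsMap_surjective hd)] at hz
  have hpM : ¬ p ∣ M := by
    rwa [Nat.eq_of_mul_eq_mul_right hp.out.pos (hMp.trans hK)]
  obtain ⟨r', hr'⟩ := attachInput p M ⊤ (Subgroup.mem_top _) O' hpO' z hz
  obtain ⟨htr, hdet⟩ := trace_det_eq_of_isAttached hpO' hNS hpS hρ hρfrob hz hr' hd
    fun ℓ hℓ hℓS => hzv ℓ hℓ fun e => hℓS (e ▸ hpS)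
  obtain ⟨U', hV10, hV11⟩ := exists_residual_tri ψ hspan' htr U hU10 hU11
  obtain ⟨Q, h10, h11, -⟩ := Fermat.GR.RT.ordFlatInput p M ⊤ (Subgroup.mem_top _) hpM hp2 O' hpO'
    z hz r' hr' (exists_residue_conj hspan' htr).choose_spec.2 A hA U' hV10 hV11
  exact lineRels_of_ordBasis hσ₀ hcψ hspan htr hdet h10 h11

end Point

/-- **S33 from the theorem at `p` exactly dividing the level.** -/
theorem s33_of_ordInput {p : ℕ} {N : ℕ} [NeZero N] {S : Finset ℕ}
    {𝒪 : Type} [CommRing 𝒪] [IsDomain 𝒪] [IsDiscreteValuationRing 𝒪]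
    [IsAdicComplete (IsLocalRing.maximalIdeal 𝒪) 𝒪]
    {θ : CuspForm.heckeAlgebra N 2 (↑S : Set ℕ) →+* IsLocalRing.ResidueField 𝒪}
    {T : Type} [CommRing T] [IsLocalRing T] [IsNoetherianRing T]
    [IsAdicComplete (IsLocalRing.maximalIdeal T) T] [Algebra 𝒪 T] [IsLocalHom (algebraMap 𝒪 T)]
    [Module.Finite 𝒪 T] [Module.Free 𝒪 T]
    [Finite (IsLocalRing.ResidueField 𝒪)] [CharZero 𝒪]
    (hOrd : ∀ [Fact p.Prime], OrdInput p)
    (hp : p.Prime) (hp2 : p ≠ 2) (hp𝒪 : (p : 𝒪) ∈ IsLocalRing.maximalIdeal 𝒪)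
    (hN : p ∣ N ∧ ¬ p ^ 2 ∣ N)
    (hNS : ∀ q : ℕ, q.Prime → q ∣ N → q ∈ S)
    (H : CuspForm.HeckeGaloisRepDatum N (↑S : Set ℕ) 𝒪 θ T)
    (hres : (GaloisRepAdic.ofResidualGaloisRep H.ρ.residual).IsOrdinaryAt p) :
    H.ρ.IsOrdinaryAt p := by
  classical
  have : Fact p.Prime := ⟨hp⟩
  have : Finite (ResidueField T) := Finite.of_surjective
    (ResidueField.map (algebraMap 𝒪 T)) fun y => by
      obtain ⟨o, ho⟩ := H.residue_surjective y
      exact ⟨residue 𝒪 o, ho⟩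
  have : IsHausdorff (maximalIdeal T) T := inferInstance
  set b := someBasis H.ρ
  set ρT := matOf H.ρ b with hρT
  have hfrobT : ∀ (ℓ : ℕ) (hℓ : ℓ.Prime) (hℓN : ¬ ℓ ∣ N) (hℓS : ℓ ∉ (↑S : Set ℕ)),
      ∀ P : ValuationSubring ℚbar, P.LiesOverPrime ℓ → ∀ φ : Γℚ, P.IsFrobeniusAt φ ℓ →
        (ρT φ).trace = H.π (CuspForm.heckeAlgebra.T hℓ hℓN hℓS) ∧ (ρT φ).det = (ℓ : T) := by
    intro ℓ hℓ hℓN hℓS P hP φ hφ
    have hcp := H.charpoly_frob ℓ hℓ hℓN hℓS P hP φ hφ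
    rw [← LinearMap.charpoly_toMatrix (H.ρ.ρ φ) b, ← matOf_apply] at hcp
    exact trace_det_of_charpoly_matrix hcp
  refine isOrdinaryAt_of_tri b (fun A _ σ hσ => Fermat.FLAT.inertia_le_decomposition A hσ)
    fun A hA => ?_
  obtain ⟨U, hU10, hU11⟩ := exists_tri_of_isOrdinaryAt
    (ρ := GaloisRepAdic.ofResidualGaloisRep H.ρ.residual)
    (Algebra.TensorProduct.basis (ResidueField T) b) hres hA
  have hmat : ∀ σ, matOf (GaloisRepAdic.ofResidualGaloisRep H.ρ.residual)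
      (Algebra.TensorProduct.basis (ResidueField T) b) σ = (ρT σ).map (residue T) := fun σ => by
    rw [matOf_apply, hρT, matOf_apply]
    exact LinearMap.toMatrix_baseChange _ _ b b
  obtain ⟨σ₀, hσ₀, hcyc⟩ := CFT.exists_mem_inertia_cycChar hA (-1 : (ZMod p)ˣ)
  have hu : IsUnit ((ρT σ₀).det - 1) := by
    rw [det_eq_cycO hp𝒪 (matCont_matOf H.ρ b) S (fun ℓ hℓ hℓS P hP φ hφ =>
      (hfrobT ℓ hℓ (fun e => hℓS (hNS ℓ hℓ e)) hℓS P hP φ hφ).2) σ₀, ← map_one (algebraMap 𝒪 T),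
      ← map_sub]
    refine IsUnit.map _ ?_
    by_contra hnu
    have h1 := cycO_sub_cycChar_mem hp𝒪 σ₀
    have h2 : residue 𝒪 (cycO hp𝒪 σ₀) = 1 := by
      rw [← sub_eq_zero, ← map_one (residue 𝒪), ← map_sub, residue_eq_zero_iff]
      exact hnu
    rw [hcyc, ← residue_eq_zero_iff, map_sub, h2, map_natCast, sub_eq_zero] at h1
    have : CharP (ResidueField 𝒪) p := (CharP.charP_iff_prime_eq_zero hp).mpr (by
      rw [← map_natCast (residue 𝒪), residue_eq_zero_iff]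
      exact hp𝒪)
    have : NeZero p := ⟨hp.ne_zero⟩
    rw [ZMod.natCast_val, Units.val_neg, Units.val_one,
      ← ZMod.castHom_apply (h := dvd_refl p) (-1 : ZMod p), map_neg, map_one] at h1
    refine hp2 ((Nat.prime_dvd_prime_iff_eq hp Nat.prime_two).mp
      ((CharP.cast_eq_zero_iff (ResidueField 𝒪) p 2).mp ?_))
    push_cast
    linear_combination h1
  -- the relations of the stable line hold at every point of the reduced ring `T`
  set c := Ring.inverse ((ρT σ₀).det - 1) with hc'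
  have hc : c * ((ρT σ₀).det - 1) = 1 := Ring.inverse_mul_cancel _ hu
  have : IsReduced T := isReduced_of_adjoin_anemic hNS H.π H.adjoin_range_π
  have hΩ := algClosure_algebraMap_injective 𝒪
  refine exists_tri_of_lineRels (LineRels.of_injective fun z hz => ?_) hc
  obtain ⟨ψ, hψz⟩ := exists_point_ne_zero (O := 𝒪) (AlgebraicClosure (FractionRing 𝒪)) hΩ hz
  obtain ⟨O', i1, i2, i3, i4, i5, i6, i7, i8, y, hy, ψ', hloc, hker, hval⟩ :=
    exists_point_data hNS H.π H.adjoin_range_π ψ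
  have hpO' : (p : O') ∈ maximalIdeal O' := by
    rw [← map_natCast (algebraMap 𝒪 O')]
    exact map_nonunit (algebraMap 𝒪 O') _ hp𝒪
  exact ⟨O', inferInstance, (ψ' : T →+* O'), fun e => hψz (hker z e),
    lineRels_point hp2 hOrd hN hNS H.π ρT (matCont_matOf H.ρ b) hfrobT
      (Fermat.HT.Unip.span_matOf_eq_top H) hA U
      (fun σ hσ => by rw [← hmat]; exact hU10 σ hσ)
      (fun σ hσ => by rw [← hmat]; exact hU11 σ hσ)
      hσ₀ hc hy _ hloc hpO' hval⟩

end Fermat.Top.Rows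

end
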