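import Mathlib
import Fermat.Prelude.Def_CuspForm_Newforms
import Fermat.Prelude.Def_CuspForm_HeckeAlgebra
import Fermat.Prelude.Def_GaloisRep_Adic
import Fermat.Agent.GR.RT.EveryPoint
import Fermat.Agent.GR.RT.ModularPoint
import Fermat.Agent.GR.RT.Inputs
import Fermat.Agent.GR.ES.IntC
import Fermat.Agent.GR.AttachProof.Main

/-!
# Row 34 (S35): the representation of a newform at a prime exactly dividing the level

From the trace identity of an eigen system which is new at the prime: a newform is not old, as every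
complex point of a lower level is the system of an eigenform.

`s35_of_newInput`, with the input away from `p` proved in `Inputs`.
-/

set_option autoImplicit false

noncomputable section

open Polynomial IsLocalRing CongruenceSubgroup ModularFormClass

namespace Fermat.Top.Rows

open Fermat.GR.RT
open Fermat.GR (IntC intC_isIntegral isIntegral_int_map injective_of_intC)

local notation "ℚbar" => AlgebraicClosure ℚ
local notation "Γℚ" => (AlgebraicClosure ℚ ≃ₐ[ℚ] AlgebraicClosure ℚ)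
local notation "M2" R => Matrix (Fin 2) (Fin 2) R

/-- **An embedding of the algebraic integers is inverted on algebraic integers.** -/
theorem exists_inverse_intC {Ω : Type} [Field Ω] [CharZero Ω] (G : IntC →+* Ω) :
    ∃ E : integralClosure ℤ Ω →+* ℂ,
      ∀ z : IntC, E ⟨G z, isIntegral_int_map G z⟩ = (z : ℂ) := by
  have hG : Function.Injective G := injective_of_intC G
  let i : IntC →+* integralClosure ℤ Ω :=
    G.codRestrict (integralClosure ℤ Ω).toSubring (isIntegral_int_map G)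
  obtain ⟨E, hE⟩ := Fermat.GR.exists_extend_algClosed (Ω := ℂ) i
    (fun a b h => hG (congrArg Subtype.val h))
    (fun w => RingHom.IsIntegral.tower_top (Int.castRingHom IntC) i
      (fun w => by
        rw [show i.comp (Int.castRingHom IntC) = algebraMap ℤ (integralClosure ℤ Ω) from
          RingHom.ext_int _ _]
        exact Algebra.IsIntegral.isIntegral (R := ℤ) w) w)
    (algebraMap IntC ℂ)
  exact ⟨E, fun z => RingHom.congr_fun hE z⟩

variable {M : ℕ} [NeZero M]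

local notation "Lab" => MvPolynomial (Nat.Primes ⊕ (ZMod M)ˣ) ℤ

/-- **A newform gives systems which are not old.** -/
theorem not_isOldAt_of_isNewform {g : CuspForm (Gamma0 M) 2} (hg : g.IsNewform) {Ω : Type}
    [Field Ω] [CharZero Ω] (G : IntC →+* Ω) {B : Type} [CommRing B] [IsLocalRing B] (j : B →+* Ω)
    {y : Lab →+* B}
    (hy : ∀ ℓ : Nat.Primes, ∃ a : IntC,
      (a : ℂ) = qCoeff g (ℓ : ℕ) ∧ j (y (MvPolynomial.X (Sum.inl ℓ))) = G a)
    {q : ℕ} (hq : q.Prime) : ¬ IsOldAt M (⊤ : Subgroup (ZMod M)ˣ) y q := by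
  rintro ⟨K', hK0, hd, hK, y', hy', ht, -⟩
  have := hK0
  rw [Subgroup.map_top_of_surjective _ (ZMod.unitsMap_surjective hd)] at hy'
  obtain ⟨f, rfl⟩ := IsPoint.exists_factor K' ⊤ hy'
  let fΩ := (j.comp f).codRestrict (integralClosure ℤ Ω).toSubring fun t =>
    (Algebra.IsIntegral.isIntegral (R := ℤ) t).map (j.comp f).toIntAlgHom
  obtain ⟨E, hE⟩ := exists_inverse_intC G
  obtain ⟨g', hg', hg'c⟩ := exists_normalized_of_point K' (E.comp fΩ)
  refine hg.2 K' hd ?_ ⟨g', hg', fun ℓ hℓ hℓM => ?_⟩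
  · intro e
    subst e
    exact (Nat.mul_eq_left (NeZero.ne K')).mp hK |> hq.one_lt.ne'
  · have hne : ℓ ≠ q := fun e => hℓM (e ▸ hK ▸ dvd_mul_left q K')
    obtain ⟨a, ha, hja⟩ := hy ⟨ℓ, hℓ⟩
    rw [hg'c ⟨ℓ, hℓ⟩, ← ha, ← hE a]
    refine congrArg E (Subtype.ext ?_)
    change j (f (Fermat.JAC.XH.tOp K' ⊤ ⟨ℓ, hℓ⟩)) = G a
    have e := ht ℓ hℓ hne
    rw [tVal, tVal, dif_pos hℓ, dif_pos hℓ, RingHom.comp_apply] at e
    exact (congrArg j
      (((congrArg f (Fermat.JAC.XH.ringEval_inl K' ⊤ ⟨ℓ, hℓ⟩)).symm).trans e)).trans hja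

/-- A character of the Hecke algebra away from `S ⊇` the primes of the level which is integral at
the `T ℓ` is integral. -/
private theorem isIntegral_of_isIntegral_T {S : Finset ℕ} (hMS : ∀ q : ℕ, q.Prime → q ∣ M → q ∈ S)
    (chig : CuspForm.heckeAlgebra M 2 (↑S : Set ℕ) →+* ℂ)
    (h : ∀ (ℓ : ℕ) (hℓ : ℓ.Prime) (hℓM : ¬ ℓ ∣ M) (hℓS : ℓ ∉ (↑S : Set ℕ)),
      IsIntegral ℤ (chig (CuspForm.heckeAlgebra.T hℓ hℓM hℓS))) :
    ∀ t, IsIntegral ℤ (chig t) := by
  rintro ⟨t, ht⟩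
  refine Algebra.adjoin_induction (p := fun x hx => IsIntegral ℤ (chig ⟨x, hx⟩)) ?_
    (fun n => ?_) (fun x y hx hy ex ey => ?_) (fun x y hx hy ex ey => ?_) ht
  · rintro x (⟨ℓ, hℓ, hℓM, hℓS, rfl⟩ | ⟨q, hqM, hq, hqS, rfl⟩)
    · exact h ℓ hℓ hℓM hℓS
    · exact absurd (hMS q hq hqM) hqS
  · change IsIntegral ℤ (chig (algebraMap ℤ (CuspForm.heckeAlgebra M 2 (↑S : Set ℕ)) n))
    rw [eq_intCast, map_intCast]
    exact isIntegral_algebraMap (x := n)
  · rw [show chig ⟨_, _⟩ = chig ⟨x, hx⟩ + chig ⟨y, hy⟩ from map_add chig ⟨x, hx⟩ ⟨y, hy⟩]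
    exact ex.add ey
  · rw [show chig ⟨_, _⟩ = chig ⟨x, hx⟩ * chig ⟨y, hy⟩ from map_mul chig ⟨x, hx⟩ ⟨y, hy⟩]
    exact ex.mul ey

variable {O : Type} [CommRing O] [IsDomain O] [IsDiscreteValuationRing O]
  [IsAdicComplete (maximalIdeal O) O] [Finite (ResidueField O)] [CharZero O]

omit [NeZero M] [IsAdicComplete (maximalIdeal O) O] [Finite (ResidueField O)]
  [IsDiscreteValuationRing O] [CharZero O] in
/-- A character with integral values, followed by a map to `O`, extends to the algebraic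
integers. -/
private theorem exists_extend_intC {R : Type} [CommRing R] (chig : R →+* ℂ)
    (hint : ∀ t, IsIntegral ℤ (chig t)) (iota : chig.range →+* O) :
    ∃ G : IntC →+* AlgebraicClosure (FractionRing O), ∀ t, G ⟨chig t, hint t⟩ =
      algebraMap O (AlgebraicClosure (FractionRing O)) (iota (chig.rangeRestrict t)) := by
  let i₀ : chig.range →+* IntC := chig.range.subtype.codRestrict (integralClosure ℤ ℂ).toSubring
    (by rintro ⟨z, t, rfl⟩; exact hint t)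
  obtain ⟨G, hG⟩ := Fermat.GR.exists_extend_algClosed (Ω := AlgebraicClosure (FractionRing O)) i₀
    (fun a b h => by
      have h' := congrArg (fun z : IntC => (z : ℂ)) h
      exact Subtype.ext h') (intC_isIntegral i₀)
    ((algebraMap O (AlgebraicClosure (FractionRing O))).comp iota)
  exact ⟨G, fun t => RingHom.congr_fun hG (chig.rangeRestrict t)⟩

omit [NeZero M] [IsAdicComplete (maximalIdeal O) O] [Finite (ResidueField O)] [CharZero O] in
/-- The characteristic polynomial of a matrix representation. -/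
private theorem charpoly_repOf {r : Γℚ →* M2 O} (hr : Fermat.GR.MatCont r) (σ : Γℚ) :
    LinearMap.charpoly ((Fermat.GR.repOf r hr).ρ σ) =
      X ^ 2 - C (r σ).trace * X + C (r σ).det := by
  refine Eq.trans ?_ (Matrix.charpoly_fin_two (r σ))
  rw [← Fermat.GR.toMatrix_repOf r hr σ]
  exact (LinearMap.charpoly_toMatrix _ _).symm

/-- Trace and determinant at Frobenius of a prime exactly dividing the level, where the system is
new. -/
private theorem trace_det_of_new {lam : ℕ} [Fact lam.Prime] (hN : NewInput lam)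
    (hlam : (lam : O) ∈ maximalIdeal O) {y : Lab →+* O} (hy : IsPoint M ⊤ y) {r : Γℚ →* M2 O}
    (hr : IsAttached lam y r)
    (hlocal : ∀ ℓ : ℕ, ℓ.Prime → ¬ ℓ ∣ M → ℓ ≠ lam → ∀ A : ValuationSubring ℚbar,
      A.LiesOverPrime ℓ → ∀ σ : Γℚ, A.IsFrobeniusAt σ ℓ → (r σ).det = (ℓ : O))
    {q : ℕ} (hq : q.Prime) (hql : q ≠ lam) (hqM : q ∣ M) (hq2 : ¬ q ^ 2 ∣ M)
    (hold : ¬ IsOldAt M (⊤ : Subgroup (ZMod M)ˣ) y q) {A : ValuationSubring ℚbar}
    (hA : A.LiesOverPrime q) {σ : Γℚ} (hσ : A.IsFrobeniusAt σ q) :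
    ((r σ).trace = (q : O) + 1 ∨ (r σ).trace = -((q : O) + 1)) ∧ (r σ).det = (q : O) := by
  obtain ⟨K', hK⟩ := hqM
  rw [mul_comm] at hK
  have hqK' : ¬ q ∣ K' := fun h => hq2 (by rw [hK, pow_two]; exact Nat.mul_dvd_mul_right h q)
  have hd : K' ∣ M := ⟨q, hK⟩
  have : NeZero K' := ⟨fun h => NeZero.ne M (by rw [hK, h, zero_mul])⟩
  obtain ⟨-, hnew⟩ := hN M ⊤ (Subgroup.mem_top _) q hq hql K' hK.symm hqK'
    (fun u _ => Subgroup.mem_top u) O hlam y hy r hr A hA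
  obtain ⟨u, hu⟩ := ZMod.unitsMap_surjective hd
    (ZMod.unitOfCoprime q (hq.coprime_iff_not_dvd.mpr hqK'))
  have hu' : ((u : ZMod M).val : ZMod K') = (q : ZMod K') := by
    rw [ZMod.natCast_val, ← ZMod.unitsMap_val hd, hu, ZMod.coe_unitOfCoprime]
  have htr := hnew hold σ hσ u hu'
  rw [hy.dia_eq_one (Subgroup.mem_top _), one_mul] at htr
  refine ⟨sq_eq_sq_iff_eq_or_eq_neg.mp htr, ?_⟩
  have : IsLocalHom (algebraMap O O) := ⟨fun a ha => by simpa using ha⟩
  rw [Fermat.GR.RT.det_eq_cycO hlam hr.cont (M * lam).primeFactors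
    (fun ℓ hℓ hbad P hP φ hφ => ?_) σ]
  · rw [Algebra.algebraMap_self_apply, cycO_frobenius hlam hq hql hA hσ]
  · have hℓK : ¬ ℓ ∣ M * lam := fun e => hbad (Nat.mem_primeFactors.mpr
      ⟨hℓ, e, Nat.mul_ne_zero (NeZero.ne M) (Fact.out : lam.Prime).ne_zero⟩)
    exact hlocal ℓ hℓ (fun e => hℓK (e.mul_right lam))
      (fun e => hℓK (e ▸ dvd_mul_left lam M)) P hP φ hφ

/-- **S35 from the trace identity at a prime exactly dividing the level.** -/
theorem s35_of_newInput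
    {M : ℕ} [NeZero M] {g : CuspForm (CongruenceSubgroup.Gamma0 M) 2} (hg : g.IsNewform)
    (lam : ℕ) [Fact lam.Prime] (hN : NewInput lam)
    (S : Finset ℕ)
    (O' : Type) [CommRing O'] [IsDomain O'] [IsDiscreteValuationRing O']
    [IsAdicComplete (IsLocalRing.maximalIdeal O') O'] [Finite (IsLocalRing.ResidueField O')]
    [CharZero O'] (hlamO' : (lam : O') ∈ IsLocalRing.maximalIdeal O')
    (chig : CuspForm.heckeAlgebra M 2 (↑S : Set ℕ) →+* ℂ)
    (hchig : ∀ (ℓ : ℕ) (hℓ : ℓ.Prime) (hℓM : ¬ ℓ ∣ M) (hℓS : ℓ ∉ (↑S : Set ℕ)),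
      chig (CuspForm.heckeAlgebra.T hℓ hℓM hℓS) = ModularFormClass.qCoeff g ℓ)
    (iota : chig.range →+* O')
    (hlamS : lam ∈ S) (hMS : ∀ q : ℕ, q.Prime → q ∣ M → q ∈ S)
    :
    ∃ (O'' : Type) (_ : CommRing O'') (_ : IsDomain O'') (_ : IsDiscreteValuationRing O'')
      (_ : IsAdicComplete (IsLocalRing.maximalIdeal O'') O'')
      (_ : Finite (IsLocalRing.ResidueField O''))
      (_ : CharZero O'') (_ : Algebra O' O'') (_ : Module.Finite O' O'')
        (_ : IsLocalHom (algebraMap O' O'')),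
      Function.Injective (algebraMap O' O'') ∧
      ∃ ρ : GaloisRepAdic O'',
        (∀ (ℓ : ℕ) (hℓ : ℓ.Prime) (hℓM : ¬ ℓ ∣ M) (hℓS : ℓ ∉ (↑S : Set ℕ)),
          ∀ A : ValuationSubring (AlgebraicClosure ℚ), A.LiesOverPrime ℓ →
            ∀ σ : AlgebraicClosure ℚ ≃ₐ[ℚ] AlgebraicClosure ℚ, A.IsFrobeniusAt σ ℓ →
              LinearMap.charpoly (ρ.ρ σ) =
                X ^ 2 - C (algebraMap O' O'' ((iota.comp chig.rangeRestrict)
                  (CuspForm.heckeAlgebra.T hℓ hℓM hℓS))) * X + C ((ℓ : O''))) ∧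
        (∀ q : ℕ, q.Prime → q ≠ lam → q ∣ M → ¬ q ^ 2 ∣ M →
          ∀ A : ValuationSubring (AlgebraicClosure ℚ), A.LiesOverPrime q →
            ∀ σ : AlgebraicClosure ℚ ≃ₐ[ℚ] AlgebraicClosure ℚ, A.IsFrobeniusAt σ q →
              LinearMap.charpoly (ρ.ρ σ) = X ^ 2 - C ((q : O'') + 1) * X + C ((q : O'')) ∨
              LinearMap.charpoly (ρ.ρ σ) = X ^ 2 + C ((q : O'') + 1) * X + C ((q : O''))) := by
  classical
  obtain ⟨χ, hχT, hχd⟩ := Fermat.JAC.XH.exists_point_of_eigenform M ⊤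
    (fun e => hg.1.ne_zero ((toTop M).map_eq_zero_iff.mp e)) (eigenVal g) (formOp_toTop M hg.1)
  -- the values of `chig` are algebraic integers
  have hint := isIntegral_of_isIntegral_T hMS chig fun ℓ hℓ hℓM hℓS => by
    rw [hchig ℓ hℓ hℓM hℓS,
      show qCoeff g ℓ = χ (Fermat.JAC.XH.tOp M ⊤ ⟨ℓ, hℓ⟩) from (hχT ⟨ℓ, hℓ⟩).symm]
    exact (Algebra.IsIntegral.isIntegral (R := ℤ) _).map χ.toIntAlgHom
  -- the eigen system of `g` over the integers of a finite extension, and its representation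
  obtain ⟨G, hG⟩ := exists_extend_intC chig hint iota
  let x := (G.comp (intVal χ)).comp (Fermat.JAC.XH.ringEval M ⊤)
  have hx : IsPoint M ⊤ x := isPoint_of_factor M ⊤ _
  obtain ⟨@⟨O'', j1, j2, j3, j4, j5, j6, j7, j8, j9, hinj⟩, y, hy, j, hj, hjy⟩ :=
    exists_dvr_point M ⊤ O' hx
  have hlam : (lam : O'') ∈ maximalIdeal O'' := by
    rw [← map_natCast (algebraMap O' O'')]
    exact map_nonunit (algebraMap O' O'') _ hlamO'
  obtain ⟨r, hr⟩ := Fermat.GR.RT.attachInput lam M ⊤ (Subgroup.mem_top _) O'' hlam y hy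
  have hval : ∀ ℓ : Nat.Primes, j (y (MvPolynomial.X (Sum.inl ℓ))) =
      G (intVal χ (Fermat.JAC.XH.tOp M ⊤ ℓ)) := fun ℓ => by
    rw [show j (y (MvPolynomial.X (Sum.inl ℓ))) = x (MvPolynomial.X (Sum.inl ℓ)) from
      RingHom.congr_fun hjy _]
    change G (intVal χ (Fermat.JAC.XH.ringEval M ⊤ (MvPolynomial.X (Sum.inl ℓ)))) = _
    rw [Fermat.JAC.XH.ringEval_inl]
  have he : ∀ m : ℕ, m.Coprime M → eVal y m = 1 := fun m hm => by
    rw [eVal, dif_pos hm, hy.dia_eq_one (Subgroup.mem_top _)]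
  have hlocal : ∀ ℓ : ℕ, ℓ.Prime → ¬ ℓ ∣ M → ℓ ≠ lam → ∀ A : ValuationSubring ℚbar,
      A.LiesOverPrime ℓ → ∀ σ : Γℚ, A.IsFrobeniusAt σ ℓ →
        (r σ).trace = tVal y ℓ ∧ (r σ).det = (ℓ : O'') := fun ℓ hℓ hℓM hne A hA σ hσ => by
    obtain ⟨h1, h2⟩ := hr.frobenius ℓ hℓ (fun e => (hℓ.dvd_mul.mp e).elim hℓM fun e' =>
      hne ((Nat.prime_dvd_prime_iff_eq hℓ Fact.out).mp e')) A hA σ hσ
    rw [he ℓ (hℓ.coprime_iff_not_dvd.mpr hℓM), mul_one] at h1 h2
    exact ⟨h1, h2⟩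
  refine ⟨O'', j1, j2, j3, j4, j5, j6, j7, j8, j9, hinj, Fermat.GR.repOf r hr.cont, ?_, ?_⟩
  · intro ℓ hℓ hℓM hℓS A hA σ hσ
    obtain ⟨h1, h2⟩ := hlocal ℓ hℓ hℓM (fun e => hℓS (e ▸ hlamS)) A hA σ hσ
    rw [charpoly_repOf, h2, h1]
    suffices h : tVal y ℓ = algebraMap O' O'' ((iota.comp chig.rangeRestrict)
        (CuspForm.heckeAlgebra.T hℓ hℓM hℓS)) by rw [h]
    refine hj ?_
    rw [tVal, dif_pos hℓ]
    refine (hval ⟨ℓ, hℓ⟩).trans ?_
    rw [AlgHom.commutes]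
    refine Eq.trans ?_ (hG (CuspForm.heckeAlgebra.T hℓ hℓM hℓS))
    refine congrArg G (Subtype.ext ?_)
    refine (coe_intVal χ _).trans ((hχT ⟨ℓ, hℓ⟩).trans ?_)
    exact (hchig ℓ hℓ hℓM hℓS).symm
  -- at `q` the system is new as `g` is a newform
  · intro q hq hql hqM hq2 A hA σ hσ
    obtain ⟨htr, hdet⟩ := trace_det_of_new hN hlam hy hr
      (fun ℓ hℓ hℓM hne P hP φ hφ => (hlocal ℓ hℓ hℓM hne P hP φ hφ).2) hq hql hqM hq2
      (not_isOldAt_of_isNewform hg G (j : O'' →+* _) (fun ℓ => ⟨_, (coe_intVal χ _).trans (hχT ℓ),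
        hval ℓ⟩) hq) hA hσ
    rcases htr with h | h
    · exact Or.inl (by rw [charpoly_repOf, h, hdet])
    · refine Or.inr ?_
      rw [charpoly_repOf, h, hdet, map_neg, neg_mul, sub_neg_eq_add]

end Fermat.Top.Rows

end
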