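import Fermat.Agent.Top.Rows.LowerAll
import Fermat.Agent.GR.RT.TorsionModular
import Fermat.Prelude.Def_GaloisRep_Residual

/-!
# Level lowering for the torsion of a semistable curve

For odd `p`, an unramified prime `q ≠ p` leaves the squarefree level of the residual modularity of a
semistable curve whose torsion representation is surjective.

`residuallyModular_div_of_surjective`, from `LowerAll`: S38 once surjectivity is known (`SW/Serre`).
-/

set_option autoImplicit false

noncomputable section

open WeierstrassCurve WeierstrassCurve.Affine Fermat.SW Fermat.GR.RT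
open scoped WeierstrassCurve.Affine

namespace Fermat.Top.Rows

variable {p : ℕ} [hp : Fact p.Prime] {W : WeierstrassCurve ℤ}

/-- **Level lowering for semistable curves with surjective torsion representation**, at an
unramified prime `q ≠ p`. -/
theorem residuallyModular_div_of_surjective (hp2 : p ≠ 2) (hW : W.Δ ≠ 0)
    (hss : W.IsSemistableModel) (hsurj : Function.Surjective (Tors.tRep (p := p) W hW))
    {hcard₁ : Nat.card (Submodule.torsionBy ℤ
      ((W.map (Int.castRingHom ℚ))⁄(AlgebraicClosure ℚ)).Point p) = p ^ 2}
    {hker : GaloisFactorsThroughFiniteLevel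
      (WeierstrassCurve.Affine.Point.galoisRepModuleEnd (K := AlgebraicClosure ℚ) ℚ
        (W.map (Int.castRingHom ℚ)) p)} {M q : ℕ} (hq : q.Prime) (hqp : q ≠ p)
    (hqM : q ∣ M) (hM : Squarefree M)
    (hunr : ((W.map (Int.castRingHom ℚ)).residualGaloisRepOf p hcard₁ hker).IsUnramifiedAt q)
    (hres : W.IsResiduallyModularOfLevel p M) :
    W.IsResiduallyModularOfLevel p (M / q) := by
  have h2 : 2 < p := lt_of_le_of_ne hp.out.two_le (Ne.symm hp2)
  have hrb := Tors.isSemistableResidual_tRep hW hss hp2 hsurj
  have hu : IsResUnramified p (Tors.tRep (p := p) W hW) q := fun A hA σ hσ =>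
    (Tors.tRep_eq_one hW).mpr fun x => LinearMap.congr_fun (hunr A hA σ hσ) x
  obtain ⟨d, hd, hmod⟩ := lowering_all h2 hrb hM hq hqp hqM hu
    (modularOf_of_residuallyModular hrb.isOpen_ker hrb.det_eq h2 hW (Tors.trace_tRep hW)
      (Nat.pos_of_ne_zero hM.ne_zero) hres)
  exact residuallyModular_of_modularOf hW hp2
    (modularOf_of_dvd (hM.squarefree_of_dvd (Nat.div_dvd_of_dvd hqM)) hd hmod)

end Fermat.Top.Rows

end
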