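import Fermat.Agent.Top.Rows.Modular
import Fermat.Agent.GR.ES.EigenChar
import Fermat.Agent.MC.IntStructure
import Fermat.Agent.MC.QScale
import Fermat.Agent.MC.Conjugate
import Fermat.Agent.HM.Forms
import Fermat.Prelude.Def_CuspForm_IntegralLattice
import Fermat.Prelude.Def_FormalHecke_Eigensystem

/-!
# The eigen system modulo three of a semistable curve in the integral lattice

Removing the coefficients at the indices which share a factor with the squarefree level `N` leaves a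
form of level `N * N` with integral coefficients.  Modulo `3` these satisfy the recursion in which
`ℓ` is replaced by the quadratic character of conductor `3`.

`weightOne_of_inputs` is S46, from modularity and the depletion `exists_deplete_all`.
-/

set_option autoImplicit false

noncomputable section

open CongruenceSubgroup ModularFormClass WeierstrassCurve EisensteinWeightOne UpperHalfPlane
open scoped MatrixGroups ModularForm

namespace Fermat.Top.Rows

open Fermat.GR Fermat.GR.RT Fermat.GR.Lifting Fermat.HM Fermat.MC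

/-- Slashing by `(q 0; 0 1)` is `q` times the substitution `τ ↦ q τ`. -/
theorem slash_scaleGL (q : ℕ) [NeZero q] (f : ℍ → ℂ) :
    f ∣[(2 : ℤ)] toReal (scaleGL q) = fun z => (q : ℂ) * f (affH (posN q) 0 z) := by
  funext z
  have hdet : ((toReal (scaleGL q)).det.val : ℝ) = q := by
    rw [Matrix.GeneralLinearGroup.val_det_apply, Matrix.det_fin_two]
    simp [toReal_apply, scaleGL]
  have hpos : 0 < ((toReal (scaleGL q)).det.val : ℝ) := by
    rw [hdet]; exact_mod_cast NeZero.pos q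
  have hsm : toReal (scaleGL q) • z = affH (posN q) 0 z := by
    apply UpperHalfPlane.ext
    rw [UpperHalfPlane.coe_smul_of_det_pos hpos, coe_affH]
    simp [UpperHalfPlane.num, UpperHalfPlane.denom, toReal_apply, scaleGL, posN]
  rw [ModularForm.slash_apply, hsm, UpperHalfPlane.σ, if_pos hpos, hdet]
  simp [UpperHalfPlane.denom, toReal_apply, scaleGL]
  ring

/-- **Removing the coefficients divisible by a prime of the level.** -/
theorem exists_deplete {M : ℕ} [NeZero M] (G : CuspForm (Gamma0 M) 2) {q : ℕ} (hq : q.Prime)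
    (hqM : q ∣ M) :
    ∃ G' : CuspForm (Gamma0 (M * q)) 2, ∀ n, qCoeff G' n = if q ∣ n then 0 else qCoeff G n := by
  have : NeZero q := ⟨hq.ne_zero⟩
  have : NeZero (M * q) := ⟨Nat.mul_ne_zero (NeZero.ne M) hq.ne_zero⟩
  have h1 : IsLevelMap (⊤ : Subgroup (ZMod M)ˣ) (⊤ : Subgroup (ZMod (M * q))ˣ) 1 1 :=
    isLevelMap_one (dvd_mul_right M q) le_top
  have hD : IsLevelMap (⊤ : Subgroup (ZMod M)ˣ) (⊤ : Subgroup (ZMod (M * q))ˣ) q (scaleGL q) :=
    isLevelMap_scale dvd_rfl le_top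
  let A : CuspForm (Gamma0 (M * q)) 2 := (toTop (M * q)).symm (h1.formPull (toTop M G))
  let B : CuspForm (Gamma0 (M * q)) 2 :=
    (toTop (M * q)).symm (hD.formPull (toTop M (CuspForm.heckeULin 2 hqM G)))
  have hA : ⇑A = ⇑G := by
    change ⇑((toTop (M * q)).symm (h1.formPull (toTop M G))) = _
    rw [coe_toTop_symm, IsLevelMap.coe_formPull, map_one, SlashAction.slash_one, coe_toTop]
  have hB : ⇑B = fun z => (q : ℂ) * CuspForm.heckeULin 2 hqM G (affH (posN q) 0 z) := by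
    change ⇑((toTop (M * q)).symm (hD.formPull (toTop M (CuspForm.heckeULin 2 hqM G)))) = _
    rw [coe_toTop_symm, IsLevelMap.coe_formPull, slash_scaleGL, coe_toTop]
  refine ⟨A - (q : ℂ)⁻¹ • B, fun n => ?_⟩
  have hq0 : (q : ℂ) ≠ 0 := Nat.cast_ne_zero.mpr hq.ne_zero
  have hsm : qCoeff ((q : ℂ)⁻¹ • B : CuspForm (Gamma0 (M * q)) 2) n =
      if q ∣ n then qCoeff G n else 0 := by
    have he : (⇑((q : ℂ)⁻¹ • B : CuspForm (Gamma0 (M * q)) 2) : ℍ → ℂ) =
        ⇑(CuspForm.heckeULin 2 hqM G) ∘ affH (posN q) 0 := by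
      funext z
      change (q : ℂ)⁻¹ * B z = _
      rw [hB, ← mul_assoc, inv_mul_cancel₀ hq0, one_mul]
      rfl
    unfold qCoeff
    rw [he, qExpansion_comp_posN q (Fermat.MC.bddPer_cuspForm (CuspForm.heckeULin 2 hqM G)) n]
    split_ifs with hn
    · exact (coeff_U hq hqM G (n / q)).trans (by rw [Nat.mul_div_cancel' hn]; rfl)
    · rfl
  rw [← coeffLin_apply, map_sub, coeffLin_apply, coeffLin_apply, hsm,
    show qCoeff A n = qCoeff G n from congrArg (fun h : ℍ → ℂ => qCoeff h n) hA]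
  split_ifs <;> simp

/-- **Removing every index sharing a factor with the level.** -/
theorem exists_deplete_all {N : ℕ} [NeZero N] (G : CuspForm (Gamma0 N) 2) (hN : Squarefree N) :
    ∃ G' : CuspForm (Gamma0 (N * N)) 2,
      ∀ n, qCoeff G' n = if n.Coprime N then qCoeff G n else 0 := by
  classical
  have key : ∀ s : Finset ℕ, s ⊆ N.primeFactors → ∃ G' : CuspForm (Gamma0 (N * ∏ r ∈ s, r)) 2,
      ∀ n, qCoeff G' n = if ∃ r ∈ s, r ∣ n then 0 else qCoeff G n := by
    intro s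
    induction s using Finset.induction_on with
    | empty =>
      intro _
      rw [Finset.prod_empty, mul_one]
      exact ⟨G, fun n => by rw [if_neg]; simp⟩
    | insert a s ha ih =>
      intro hs
      obtain ⟨G₁, hG₁⟩ := ih ((Finset.subset_insert a s).trans hs)
      obtain ⟨hap, haN, -⟩ := Nat.mem_primeFactors.mp (hs (Finset.mem_insert_self a s))
      have : NeZero (N * ∏ r ∈ s, r) := ⟨Nat.mul_ne_zero (NeZero.ne N)
        (Finset.prod_ne_zero_iff.mpr fun r hr =>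
          (Nat.mem_primeFactors.mp (hs (Finset.mem_insert_of_mem hr))).1.ne_zero)⟩
      obtain ⟨G₂, hG₂⟩ := exists_deplete G₁ hap (haN.mul_right _)
      rw [Finset.prod_insert ha, mul_comm a, ← mul_assoc]
      refine ⟨G₂, fun n => ?_⟩
      rw [hG₂, hG₁]
      simp only [Finset.exists_mem_insert]
      by_cases h : a ∣ n <;> simp [h]
  obtain ⟨G', hG'⟩ : ∃ G' : CuspForm (Gamma0 (N * N)) 2,
      ∀ n, qCoeff G' n = if ∃ r ∈ N.primeFactors, r ∣ n then 0 else qCoeff G n := by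
    have h := key N.primeFactors subset_rfl
    rwa [Nat.prod_primeFactors_of_squarefree hN] at h
  refine ⟨G', fun n => ?_⟩
  rw [hG']
  by_cases h : n.Coprime N
  · rw [if_pos h, if_neg]
    rintro ⟨r, hr, hrn⟩
    obtain ⟨hrp, hrN, -⟩ := Nat.mem_primeFactors.mp hr
    exact hrp.one_lt.ne' (Nat.dvd_one.mp (h ▸ Nat.dvd_gcd hrn hrN))
  · rw [if_neg h, if_pos]
    obtain ⟨r, hrp, hrn, hrN⟩ := Nat.Prime.not_coprime_iff_dvd.mp h
    exact ⟨r, Nat.mem_primeFactors.mpr ⟨hrp, hrN, NeZero.ne N⟩, hrn⟩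

variable {R : Type} [CommRing R]

/-- The coefficient at `ℓ ^ r` of a formal eigen system. -/
def heckePow (e t : R) : ℕ → R
  | 0 => 1
  | 1 => t
  | (r + 2) => t * heckePow e t (r + 1) - e * heckePow e t r

/-- The formal eigen system with given values at the primes. -/
def heckeExt (e t : ℕ → R) (n : ℕ) : R :=
  if n = 0 then 0 else n.factorization.prod fun ℓ r => heckePow (e ℓ) (t ℓ) r

/-- The system takes the value `1` at `1`. -/
theorem heckeExt_one (e t : ℕ → R) : heckeExt e t 1 = 1 := by simp [heckeExt]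

/-- The system is multiplicative over each prime power, with `heckePow` at that prime. -/
theorem heckeExt_pow_mul (e t : ℕ → R) {ℓ : ℕ} (hℓ : ℓ.Prime) (r : ℕ) {m : ℕ} (hm0 : m ≠ 0)
    (hm : ¬ ℓ ∣ m) :
    heckeExt e t (ℓ ^ r * m) = heckePow (e ℓ) (t ℓ) r * heckeExt e t m := by
  classical
  have h0 : ℓ ^ r * m ≠ 0 := Nat.mul_ne_zero (pow_ne_zero r hℓ.ne_zero) hm0
  rw [heckeExt, heckeExt, if_neg h0, if_neg hm0,
    Nat.factorization_mul (pow_ne_zero r hℓ.ne_zero) hm0,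
    Finsupp.prod_add_index_of_disjoint, hℓ.factorization_pow]
  · congr 1
    rw [Finsupp.prod_single_index]
    rfl
  · rw [Nat.support_factorization, Nat.support_factorization]
    exact Nat.Coprime.disjoint_primeFactors ((hℓ.coprime_iff_not_dvd.mpr hm).pow_left r)

/-- At a prime the system takes the given value. -/
theorem heckeExt_prime (e t : ℕ → R) {ℓ : ℕ} (hℓ : ℓ.Prime) : heckeExt e t ℓ = t ℓ := by
  have h := heckeExt_pow_mul e t hℓ 1 one_ne_zero (fun h => hℓ.one_lt.ne' (Nat.dvd_one.mp h))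
  rwa [pow_one, mul_one, heckeExt_one, mul_one] at h

/-- The extended sequence is an eigensystem. -/
theorem isEigensystem_heckeExt (e t : ℕ → R) : FormalHecke.IsEigensystem e (heckeExt e t) := by
  refine ⟨heckeExt_one e t, fun ℓ hℓ n => ?_⟩
  rw [heckeExt_prime e t hℓ]
  rcases eq_or_ne n 0 with rfl | hn
  · simp [heckeExt]
  obtain ⟨r, m, hm, rfl⟩ := Nat.exists_eq_pow_mul_and_not_dvd hn ℓ hℓ.one_lt.ne'
  have hm0 : m ≠ 0 := fun e' => hm (e' ▸ dvd_zero ℓ)
  rw [← mul_assoc, ← pow_succ', heckeExt_pow_mul e t hℓ _ hm0 hm,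
    heckeExt_pow_mul e t hℓ _ hm0 hm]
  cases r with
  | zero =>
    rw [if_neg (show ¬ ℓ ∣ ℓ ^ 0 * m by simpa using hm), mul_zero, add_zero]
    simp [heckePow]
  | succ r =>
    rw [if_pos (dvd_mul_of_dvd_left (dvd_pow_self ℓ (by omega)) m),
      show ℓ ^ (r + 1) * m / ℓ = ℓ ^ r * m by
        rw [pow_succ', mul_assoc, Nat.mul_div_cancel_left _ hℓ.pos],
      heckeExt_pow_mul e t hℓ _ hm0 hm, heckePow]
    ring

/-- The values at `0`, `1` and the primes, with the recursion, determine all the values. -/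
theorem eq_of_recursion (e f g : ℕ → R) (h0 : f 0 = g 0) (h1 : f 1 = g 1)
    (hp : ∀ ℓ : ℕ, ℓ.Prime → f ℓ = g ℓ)
    (hf : ∀ ℓ : ℕ, ℓ.Prime → ∀ n,
      f (ℓ * n) + e ℓ * (if ℓ ∣ n then f (n / ℓ) else 0) = f ℓ * f n)
    (hg : ∀ ℓ : ℕ, ℓ.Prime → ∀ n,
      g (ℓ * n) + e ℓ * (if ℓ ∣ n then g (n / ℓ) else 0) = g ℓ * g n) (n : ℕ) :
    f n = g n := by
  induction n using Nat.strong_induction_on with
  | _ n ih =>
    rcases Nat.lt_or_ge n 2 with hn | hn
    · interval_cases n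
      · exact h0
      · exact h1
    have hℓ := Nat.minFac_prime (show n ≠ 1 by omega)
    have hk : n / n.minFac < n := Nat.div_lt_self (by omega) hℓ.one_lt
    have a := hf n.minFac hℓ (n / n.minFac)
    have b := hg n.minFac hℓ (n / n.minFac)
    rw [Nat.mul_div_cancel' n.minFac_dvd, hp _ hℓ, ih _ hk,
      ih _ (lt_of_le_of_lt (Nat.div_le_self _ _) hk)] at a
    rw [Nat.mul_div_cancel' n.minFac_dvd] at b
    exact add_right_cancel (a.trans b.symm)

/-- The coefficients prime to the level of an eigenform satisfy the recursion without the factor `ℓ`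
at the primes of the level. -/
private theorem depleted_rec {N : ℕ} [NeZero N] {f : CuspForm (Gamma0 N) 2}
    (hrecf : ∀ ℓ : ℕ, ℓ.Prime → ∀ n, qCoeff f (ℓ * n) +
      (if ℓ ∣ N then 0 else (ℓ : ℂ)) * (if ℓ ∣ n then qCoeff f (n / ℓ) else 0) =
      qCoeff f ℓ * qCoeff f n)
    {b : ℕ → ℂ} (hb : ∀ n, b n = if n.Coprime N then qCoeff f n else 0)
    {ℓ : ℕ} (hℓ : ℓ.Prime) (n : ℕ) :
    b (ℓ * n) + (if ℓ ∣ N then 0 else (ℓ : ℂ)) * (if ℓ ∣ n then b (n / ℓ) else 0) = b ℓ * b n := by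
  simp only [hb]
  by_cases hd : ℓ ∣ N
  · have h1 : ¬ ℓ.Coprime N := fun h => (hℓ.coprime_iff_not_dvd.mp h) hd
    rw [if_pos hd, if_neg h1, if_neg fun h => h1 (Nat.Coprime.coprime_mul_right h)]
    simp
  have h1 : ℓ.Coprime N := hℓ.coprime_iff_not_dvd.mpr hd
  rw [if_neg hd]
  by_cases hn : n.Coprime N
  · rw [if_pos h1, if_pos hn, if_pos (h1.mul_left hn), ← hrecf ℓ hℓ n, if_neg hd]
    by_cases hdn : ℓ ∣ n
    · rw [if_pos hdn, if_pos hdn, if_pos (hn.coprime_dvd_left (Nat.div_dvd_of_dvd hdn))]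
    · rw [if_neg hdn, if_neg hdn]
  · rw [if_neg hn, if_neg fun h => hn (Nat.Coprime.coprime_mul_left h), mul_zero]
    by_cases hdn : ℓ ∣ n
    · rw [if_pos hdn, if_neg fun h => hn (by
        rw [← Nat.mul_div_cancel' hdn]; exact h1.mul_left h), mul_zero, add_zero]
    · rw [if_neg hdn, mul_zero, add_zero]

/-- A recursion with integral coefficients and integral values at the primes has integral values. -/
private theorem exists_int_of_recursion {b : ℕ → ℂ} {e t : ℕ → ℤ} (h0 : b 0 = 0) (h1 : b 1 = 1)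
    (hp : ∀ ℓ : ℕ, ℓ.Prime → b ℓ = (t ℓ : ℂ))
    (hrec : ∀ ℓ : ℕ, ℓ.Prime → ∀ n,
      b (ℓ * n) + (e ℓ : ℂ) * (if ℓ ∣ n then b (n / ℓ) else 0) = b ℓ * b n)
    (n : ℕ) : ∃ m : ℤ, b n = (m : ℂ) := by
  induction n using Nat.strong_induction_on with
  | _ n ih =>
    rcases Nat.lt_or_ge n 2 with hn | hn
    · interval_cases n
      · exact ⟨0, by simp [h0]⟩
      · exact ⟨1, by simp [h1]⟩
    have hℓ := Nat.minFac_prime (show n ≠ 1 by omega)
    have hk : n / n.minFac < n := Nat.div_lt_self (by omega) hℓ.one_lt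
    have a := hrec n.minFac hℓ (n / n.minFac)
    rw [Nat.mul_div_cancel' n.minFac_dvd] at a
    obtain ⟨m₁, hm₁⟩ := ih _ hk
    obtain ⟨m₂, hm₂⟩ := ih _ (lt_of_le_of_lt (Nat.div_le_self _ n.minFac) hk)
    refine ⟨t n.minFac * m₁ - e n.minFac * (if n.minFac ∣ n / n.minFac then m₂ else 0), ?_⟩
    rw [hp _ hℓ, hm₁, hm₂] at a
    push_cast
    rw [← a]
    split_ifs <;> simp

/-- The square of a squarefree number is free of cubes. -/
private theorem not_cube_dvd_mul_self {N q : ℕ} (hN : Squarefree N) (hq : q.Prime) :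
    ¬ q ^ 3 ∣ N * N := fun hd => by
  obtain ⟨k, hk⟩ : q ∣ N :=
    (hq.dvd_mul.mp ((dvd_pow_self q (by norm_num)).trans hd)).elim id id
  have hqk : ¬ q ∣ k := fun h => hq.ne_one (Nat.isUnit_iff.mp (hN q (by
    rw [hk]; exact Nat.mul_dvd_mul_left q h)))
  rw [hk, show q * k * (q * k) = q ^ 2 * (k * k) by ring, pow_succ] at hd
  exact hqk ((hq.dvd_mul.mp (Nat.dvd_of_mul_dvd_mul_left (pow_pos hq.pos 2) hd)).elim id id)

/-- **The eigen system of a curve modular at a squarefree level.** -/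
theorem eigensystem_of_modSf {W : WeierstrassCurve ℤ} (h : ModSf W) :
    ∃ (N : ℕ) (_ : NeZero N) (a : ℕ → ℤ),
      CuspForm.HasIntegralBasis N ∧
      FormalHecke.IsEigensystem
        (fun ℓ => if ℓ ∣ N then 0 else ((chiNegThree ℓ : ℤ) : ℤ)) a ∧
      CuspForm.IsLatticeRealized N a ∧
      (∀ q : ℕ, q.Prime → q ≠ 3 → ¬ q ^ 3 ∣ N) ∧
      ∀ ℓ : ℕ, ℓ.Prime → W.IsGoodPrimeFor ℓ → ¬ ℓ ∣ N → ℓ ≠ 3 →
        (3 : ℤ) ∣ (a ℓ - W.apOfModel ℓ) := by
  classical
  obtain ⟨N, hN, hbad, -, f, hf, hfa⟩ := h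
  have : NeZero N := ⟨hN.ne_zero⟩
  have : NeZero (N * N) := ⟨Nat.mul_ne_zero hN.ne_zero hN.ne_zero⟩
  -- the depleted form and its integral coefficients
  obtain ⟨G, hG⟩ := exists_deplete_all f hN
  have hdvd : ∀ {ℓ : ℕ}, ℓ.Prime → (ℓ ∣ N * N ↔ ℓ ∣ N) := fun hℓ =>
    ⟨fun h => (hℓ.dvd_mul.mp h).elim id id, fun h => h.mul_right N⟩
  let t : ℕ → ℤ := fun ℓ => if ℓ ∣ N then 0 else W.apOfModel ℓ
  let e : ℕ → ℤ := fun ℓ => if ℓ ∣ N * N then 0 else ((chiNegThree ℓ : ℤ) : ℤ)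
  have hprime : ∀ ℓ : ℕ, ℓ.Prime → qCoeff G ℓ = (t ℓ : ℂ) := fun ℓ hℓ => by
    simp only [t, hG]
    by_cases hd : ℓ ∣ N
    · rw [if_neg fun h => (hℓ.coprime_iff_not_dvd.mp h) hd, if_pos hd, Int.cast_zero]
    · rw [if_pos (hℓ.coprime_iff_not_dvd.mpr hd), if_neg hd,
        hfa ℓ hℓ (fun hb => hd (hbad ℓ hℓ hb)) hd]
  have hrec : ∀ ℓ : ℕ, ℓ.Prime → ∀ n, qCoeff G (ℓ * n) +
      (if ℓ ∣ N then 0 else (ℓ : ℂ)) * (if ℓ ∣ n then qCoeff G (n / ℓ) else 0) =
      qCoeff G ℓ * qCoeff G n :=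
    fun ℓ hℓ => depleted_rec (fun ℓ hℓ => eigen_coeff_rec hf hℓ) hG hℓ
  have hG1 : qCoeff G 1 = 1 := by rw [hG, if_pos (Nat.coprime_one_left N), hf.qCoeff_one]
  choose af haf using exists_int_of_recursion (b := fun n => qCoeff G n)
    (e := fun ℓ => if ℓ ∣ N then 0 else (ℓ : ℤ)) (by simp [qCoeff_zero]) hG1 hprime
    fun ℓ hℓ n => by push_cast; exact hrec ℓ hℓ n
  -- modulo three they satisfy the recursion with the character for `ℓ`
  have haf3 : ∀ ℓ : ℕ, ℓ.Prime → ∀ n,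
      ((af (ℓ * n) : ℤ) : ZMod 3) + (e ℓ : ZMod 3) *
        (if ℓ ∣ n then ((af (n / ℓ) : ℤ) : ZMod 3) else 0) = (af ℓ : ZMod 3) * (af n : ZMod 3) := by
    intro ℓ hℓ n
    have h := hrec ℓ hℓ n
    simp only [haf] at h
    have h' : af (ℓ * n) + (if ℓ ∣ N then 0 else (ℓ : ℤ)) * (if ℓ ∣ n then af (n / ℓ) else 0) =
        af ℓ * af n := by
      apply Int.cast_injective (α := ℂ)
      push_cast
      exact h
    have h'' := congrArg (Int.cast : ℤ → ZMod 3) h'
    push_cast at h''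
    rw [← h'']
    congr 2
    simp only [e, hdvd hℓ]
    split_ifs with hd
    · simp
    · rw [← Int.cast_natCast ℓ]
      exact (ZMod.intCast_eq_intCast_iff_dvd_sub _ _ 3).mpr
        (by exact_mod_cast three_dvd_sub_chi ℓ)
  have haft : ∀ ℓ : ℕ, ℓ.Prime → af ℓ = t ℓ := fun ℓ hℓ => by
    apply Int.cast_injective (α := ℂ)
    rw [← haf, hprime ℓ hℓ]
  refine ⟨N * N, inferInstance, heckeExt e t, hasIntegralBasis _, isEigensystem_heckeExt e t,
    ⟨G, fun n => Subring.mem_bot.mpr ⟨af n, (haf n).symm⟩, af, fun n => (haf n).symm, fun n => ?_⟩,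
    fun q hq _ hd => ?_, fun ℓ hℓ hgood hℓN _ => ?_⟩
  · have hcongr : ((af n : ℤ) : ZMod 3) = ((heckeExt e t n : ℤ) : ZMod 3) := by
      refine eq_of_recursion (fun ℓ => (e ℓ : ZMod 3)) (fun n => ((af n : ℤ) : ZMod 3))
        (fun n => ((heckeExt e t n : ℤ) : ZMod 3)) ?_ ?_ (fun ℓ hℓ => ?_) haf3 (fun ℓ hℓ m => ?_) n
      · rw [show af 0 = 0 from Int.cast_injective (α := ℂ) (by rw [← haf]; simp [qCoeff_zero])]
        simp [heckeExt]
      · rw [show af 1 = 1 from Int.cast_injective (α := ℂ) (by rw [← haf, hG1]; simp),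
          heckeExt_one]
      · rw [haft ℓ hℓ, heckeExt_prime e t hℓ]
      · have h := congrArg (Int.cast : ℤ → ZMod 3) ((isEigensystem_heckeExt e t).2 ℓ hℓ m)
        push_cast at h
        exact h
    have h1 : (3 : ℤ) ∣ af n - heckeExt e t n := by
      exact_mod_cast (ZMod.intCast_eq_intCast_iff_dvd_sub _ _ 3).mp hcongr.symm
    have h2 := h1.sub (three_dvd_bridgeProduct_sub (heckeExt e t) n)
    rwa [sub_sub_sub_cancel_right] at h2
  · exact not_cube_dvd_mul_self hN hq hd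
  · rw [heckeExt_prime e t hℓ]
    simp only [t]
    rw [if_neg fun h => hℓN ((hdvd hℓ).mpr h), sub_self]
    exact dvd_zero 3

/-- **The weight one eigen system of a semistable curve.** -/
theorem weightOne_of_inputs [Fact (Nat.Prime 3)] [Fact (Nat.Prime 5)]
    (h3 : LiftingSfStatement 3) (h5 : LiftingSfStatement 5) (hN : NewInput 3) (hOrd : OrdInput 3)
    (W : WeierstrassCurve ℤ) (hΔ : W.Δ ≠ 0) (hW : W.IsSemistableModel) :
    ∃ (N : ℕ) (_ : NeZero N) (a : ℕ → ℤ),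
      CuspForm.HasIntegralBasis N ∧
      FormalHecke.IsEigensystem
        (fun ℓ => if ℓ ∣ N then 0 else ((chiNegThree ℓ : ℤ) : ℤ)) a ∧
      CuspForm.IsLatticeRealized N a ∧
      (∀ q : ℕ, q.Prime → q ≠ 3 → ¬ q ^ 3 ∣ N) ∧
      ∀ ℓ : ℕ, ℓ.Prime → W.IsGoodPrimeFor ℓ → ¬ ℓ ∣ N → ℓ ≠ 3 →
        (3 : ℤ) ∣ (a ℓ - W.apOfModel ℓ) :=
  eigensystem_of_modSf (modSf_of_inputs h3 h5 hN hOrd W hΔ hW)

end Fermat.Top.Rows

end
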