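import Fermat.Agent.Top.Rows.Modular
import Fermat.Agent.GR.RT.Lift.Agree
import Fermat.Prelude.Def_WeierstrassCurve_Mlc1RowStatement
import Fermat.Prelude.Def_WeierstrassCurve_ConductorLevel

/-!
# Good primes leave the level of a modular semistable curve

An eigenform with the values of a semistable curve which is new at a good prime `q` dividing its
level exactly would make the trace of Frobenius at `q` equal to `± (q + 1)`, more than the number
of points allows.  So the form is old at `q`, and the curve is modular at the radical of its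
discriminant.  With lifting this gives modularity at the conductor level (S58, S59) and residual
modularity at three (S50).
-/

set_option autoImplicit false

noncomputable section

open MvPolynomial IsLocalRing CongruenceSubgroup ModularFormClass WeierstrassCurve
open scoped WeierstrassCurve.Affine

namespace Fermat.Top.Rows

open Fermat.GR Fermat.GR.RT Fermat.HM Fermat.MC.Lvl

/-- A Weierstrass curve over a finite field has between `1` and `2 q + 1` points. -/
theorem card_point_le {F : Type*} [Field F] [Fintype F] (W : WeierstrassCurve F) :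
    1 ≤ Nat.card W.toAffine.Point ∧ Nat.card W.toAffine.Point ≤ 2 * Fintype.card F + 1 := by
  classical
  have : Fintype W.toAffine.Point := Fintype.ofFinite _
  rw [Nat.card_eq_fintype_card]
  refine ⟨Fintype.card_pos_iff.mpr ⟨0⟩, ?_⟩
  let g : W.toAffine.Point → F := fun P => match P with
    | .zero => 0
    | .some x _ _ => x
  set s : Finset W.toAffine.Point := Finset.univ.erase 0 with hs
  have h := Finset.card_le_mul_card_image (f := g) s 2 fun x _ => by
    rcases Finset.eq_empty_or_nonempty (s.filter fun P => g P = x) with e | ⟨P₀, hP₀⟩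
    · rw [e, Finset.card_empty]; exact Nat.zero_le _
    refine (Finset.card_le_card (t := {P₀, -P₀}) fun P hP => ?_).trans Finset.card_le_two
    obtain ⟨hP1, hP2⟩ := Finset.mem_filter.mp hP
    obtain ⟨hQ1, hQ2⟩ := Finset.mem_filter.mp hP₀
    match P, P₀ with
    | .zero, _ => exact absurd rfl (Finset.mem_erase.mp hP1).1
    | _, .zero => exact absurd rfl (Finset.mem_erase.mp hQ1).1
    | .some x₁ y₁ h₁, .some x₂ y₂ h₂ =>
      have hx : x₁ = x₂ := hP2.trans hQ2.symm
      subst hx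
      rcases Affine.Y_eq_of_X_eq h₁.1 h₂.1 rfl with e | e
      · subst e; simp
      · subst e; simp [Affine.Point.neg_some]
  have h2 : (s.image g).card ≤ Fintype.card F := Finset.card_le_univ _
  have h3 : s.card + 1 = Fintype.card W.toAffine.Point :=
    Finset.card_erase_add_one (Finset.mem_univ 0)
  omega

/-- The trace of Frobenius is at most `q` in absolute value. -/
theorem abs_apOfModel_le (W : WeierstrassCurve ℤ) {q : ℕ} (hq : q.Prime) :
    |W.apOfModel q| ≤ q := by
  have := Fact.mk hq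
  obtain ⟨h1, h2⟩ := card_point_le (W.reductionMod q)
  rw [ZMod.card] at h2
  unfold apOfModel traceOfFrobenius card
  rw [Nat.card_zmod, abs_le]
  omega

/-- **A good prime leaves the level.** A semistable model modular at a squarefree level is modular
without any good prime `q ≠ p` in it. -/
theorem isModularModelOfLevel_div {p : ℕ} [hp : Fact p.Prime] (hp2 : 2 < p) (hNI : NewInput p)
    {W : WeierstrassCurve ℤ} (hss : W.IsSemistableModel) {q : ℕ} (hq : q.Prime)
    (hqp : q ≠ p) (hgood : ¬ (q : ℤ) ∣ W.Δ) {N K' : ℕ} (hK : K' * q = N) (hN : Squarefree N)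
    (hmod : W.IsModularModelOfLevel N) : W.IsModularModelOfLevel K' := by
  classical
  have hW : W.Δ ≠ 0 := fun e => hgood (e ▸ dvd_zero _)
  have : NeZero N := ⟨hN.ne_zero⟩
  have : NeZero K' := ⟨fun e => NeZero.ne N (by rw [← hK, e, zero_mul])⟩
  have hd : K' ∣ N := ⟨q, hK.symm⟩
  have hqK' : ¬ q ∣ K' := fun e => hq.ne_one (Nat.isUnit_iff.mp (hN q (by
    rw [← hK]; exact Nat.mul_dvd_mul_right e q)))
  -- the eigen system of the form, over the integers of a finite extension of `ℚ_p`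
  obtain ⟨g, hg, hga⟩ := hmod
  obtain ⟨O', j1, j2, j3, j4, j5, j6, hpO', y, hy, hval⟩ := exists_point_of_eigenform p hg
  have hdia : ∀ v : (ZMod N)ˣ, y (X (Sum.inr v)) = 1 := fun v => by
    rw [(hval (Sum.inr v) 1).mpr (by simp [eigenVal]), Int.cast_one]
  have hga' : ∀ m : ℕ, (hm : m.Prime) → ¬ (m : ℤ) ∣ W.Δ → ¬ m ∣ N →
      y (X (Sum.inl ⟨m, hm⟩)) = ((W.apOfModel m : ℤ) : O') := fun m hm hmΔ hmN =>
    (hval (Sum.inl ⟨m, hm⟩) (W.apOfModel m)).mpr (hga m hm hmΔ hmN)
  obtain ⟨r, hr⟩ := attachInput p N ⊤ (Subgroup.mem_top _) O' hpO' y hy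
  obtain ⟨ρ, hρ⟩ := Fermat.GR.CurveRep.curveRepInput p hp2 W hW hss
  set ι := Fermat.GR.padicToAdic O' hpO' with hι
  have hloc : IsLocalHom ι := isLocalHom_padicToAdic O' hpO'
  have htr : ∀ σ, ((ι : ℤ_[p] →+* O').mapMatrix (ρ σ)).trace = ι (ρ σ).trace := fun σ => by
    simp [Matrix.trace_fin_two]
  have he : ∀ m : ℕ, m.Coprime N → eVal y m = 1 := fun m hm => by
    rw [eVal, dif_pos hm, hdia]
  have hne : W.Δ.natAbs * N * p ≠ 0 :=
    Nat.mul_ne_zero (Nat.mul_ne_zero (by simpa using hW) (NeZero.ne N)) hp.out.ne_zero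
  -- its representation has the traces of that of the curve
  have hagree := trace_eq_of_frobenius hr.cont (matCont_mapHom hρ.cont ι hloc)
    (W.Δ.natAbs * N * p).primeFactors fun m hm hmT P hP φ hφ => by
      rw [Nat.mem_primeFactors, not_and, not_and] at hmT
      have hmΔ : ¬ (m : ℤ) ∣ W.Δ := fun e =>
        hmT hm (((Int.natCast_dvd.mp e).mul_right N).mul_right p) hne
      have hmN : ¬ m ∣ N := fun e => hmT hm ((e.mul_left _).mul_right p) hne
      have hmp : m ≠ p := fun e => hmT hm (by rw [e]; exact dvd_mul_left p _) hne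
      have hmK : ¬ m ∣ N * p := fun e => (hm.dvd_mul.mp e).elim hmN
        fun e' => hmp ((Nat.prime_dvd_prime_iff_eq hm hp.out).mp e')
      obtain ⟨h1, h2⟩ := hr.frobenius m hm hmK P hP φ hφ
      refine ⟨?_, ?_⟩
      · rw [h1, he m (hm.coprime_iff_not_dvd.mpr hmN), mul_one, tVal, dif_pos hm,
          hga' m hm hmΔ hmN]
        change _ = ((ι : ℤ_[p] →+* O').mapMatrix (ρ φ)).trace
        rw [htr, (hρ.good m hm hmp hmΔ P hP).2 φ hφ, map_intCast]
      · rw [h2, he m (hm.coprime_iff_not_dvd.mpr hmN), mul_one]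
        change _ = ((ι : ℤ_[p] →+* O').mapMatrix (ρ φ)).det
        rw [← RingHom.map_det, hρ.det, cycO_frobenius padicInt_mem hm hmp hP hφ, map_natCast]
  obtain ⟨P, hP⟩ := Fermat.CFT.exists_place hq
  obtain ⟨φ, hφ⟩ := Fermat.CFT.exists_isFrobeniusAt hq hP
  obtain ⟨v, hv⟩ := ZMod.unitsMap_surjective hd
    (ZMod.unitOfCoprime q (hq.coprime_iff_not_dvd.mpr hqK'))
  -- new at `q` would give `a_q² = (q + 1)²`
  have hold : IsOldAt N ⊤ y q := by
    by_contra hnold
    have h := (hNI N ⊤ (Subgroup.mem_top _) q hq hqp K' hK hqK' (fun _ _ => Subgroup.mem_top _)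
      O' hpO' y hy r hr P hP).2 hnold φ hφ v (by
        rw [ZMod.natCast_val, ← ZMod.unitsMap_val hd, hv, ZMod.coe_unitOfCoprime])
    rw [hdia, one_mul, hagree φ, show (mapHom (ι : ℤ_[p] →+* O') ρ) φ =
      (ι : ℤ_[p] →+* O').mapMatrix (ρ φ)
      from rfl, htr, (hρ.good q hq hqp hgood P hP).2 φ hφ, map_intCast] at h
    have h' : (((W.apOfModel q) ^ 2 : ℤ) : O') = (((q : ℤ) + 1) ^ 2 : ℤ) := by push_cast; exact h
    have h2 : (W.apOfModel q) ^ 2 = ((q : ℤ) + 1) ^ 2 := by exact_mod_cast h'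
    obtain ⟨ha, hb⟩ := abs_le.mp (abs_apOfModel_le W hq)
    nlinarith
  -- so the system comes from level `K'`
  obtain ⟨K'', hK'', hd', hKq, y', hy', ht, -⟩ := hold
  obtain rfl : K'' = K' := Nat.eq_of_mul_eq_mul_right hq.pos (hKq.trans hK.symm)
  have hy'' : IsPoint K'' ⊤ y' := by
    rwa [Subgroup.map_top_of_surjective _ (ZMod.unitsMap_surjective hd')] at hy'
  refine agreeStatement W hW hss K'' (AlgebraicClosure (FractionRing O'))
    ((algebraMap O' (AlgebraicClosure (FractionRing O'))).comp y')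
    ⟨fun Q hQ => by rw [RingHom.comp_apply, hy''.kills Q hQ, map_zero]⟩
    (W.Δ.natAbs * N).primeFactors (fun ℓ hℓ hℓS => ?_) K'' (hN.squarefree_of_dvd hd) dvd_rfl
  rw [Nat.mem_primeFactors, not_and, not_and] at hℓS
  have hne' : W.Δ.natAbs * N ≠ 0 := Nat.mul_ne_zero (by simpa using hW) (NeZero.ne N)
  have hℓΔ : ¬ (ℓ : ℤ) ∣ W.Δ := fun e => hℓS hℓ ((Int.natCast_dvd.mp e).mul_right N) hne'
  have hℓN : ¬ ℓ ∣ N := fun e => hℓS hℓ (e.mul_left _) hne'
  have h := ht ℓ hℓ fun e => hℓN (e ▸ ⟨K'', hK.symm.trans (mul_comm _ _)⟩)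
  rw [tVal, tVal, dif_pos hℓ, dif_pos hℓ, hga' ℓ hℓ hℓΔ hℓN] at h
  rw [tVal, dif_pos hℓ, RingHom.comp_apply, h, map_intCast]

/-- The discriminant is nonzero if all its prime divisors divide one nonzero number. -/
theorem Δ_ne_zero_of_prime_dvd {W : WeierstrassCurve ℤ} {N : ℕ} (hN : N ≠ 0)
    (hbad : ∀ ℓ : ℕ, ℓ.Prime → (ℓ : ℤ) ∣ W.Δ → ℓ ∣ N) : W.Δ ≠ 0 := fun e => by
  obtain ⟨r, hr, hrp⟩ := Nat.exists_infinite_primes (N + 1)
  have := Nat.le_of_dvd (Nat.pos_of_ne_zero hN) (hbad r hrp (by rw [e]; exact dvd_zero _))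
  omega

variable [Fact (Nat.Prime 3)] [Fact (Nat.Prime 5)]

/-- **Modularity at the exact conductor level**, from modularity at any squarefree level containing
the bad primes. -/
theorem exact_of_modSf (hN3 : NewInput 3) (hN5 : NewInput 5) {W : WeierstrassCurve ℤ}
    (hss : W.IsSemistableModel) (h : ModSf W) :
    Mlc1IsModularModelOfExactConductorLevel W := by
  obtain ⟨N, hN, hbad, -, hmod⟩ := h
  induction N using Nat.strong_induction_on with
  | _ N ih =>
    by_cases hg : ∃ q : ℕ, q.Prime ∧ q ∣ N ∧ ¬ (q : ℤ) ∣ W.Δ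
    swap
    · push Not at hg
      exact ⟨N, Nat.pos_of_ne_zero hN.ne_zero, hN, fun q hq => ⟨hg q hq, hbad q hq⟩, hmod⟩
    obtain ⟨q, hq, ⟨K', hK⟩, hgood⟩ := hg
    rw [mul_comm] at hK
    have hK0 : K' ≠ 0 := fun e => hN.ne_zero (by rw [hK, e, zero_mul])
    refine ih K' (by rw [hK]; exact lt_mul_of_one_lt_right (Nat.pos_of_ne_zero hK0) hq.one_lt)
      (hN.squarefree_of_dvd ⟨q, hK⟩) (fun r hr hrd => ?_) ?_
    · exact (hr.dvd_mul.mp (hK ▸ hbad r hr hrd)).resolve_right fun e =>
        hgood ((Nat.prime_dvd_prime_iff_eq hr hq).mp e ▸ hrd)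
    · by_cases h3 : q = 3
      · exact isModularModelOfLevel_div (p := 5) (by norm_num) hN5 hss hq (by omega) hgood
          hK.symm hN hmod
      · exact isModularModelOfLevel_div (p := 3) (by norm_num) hN3 hss hq h3 hgood
          hK.symm hN hmod

/-- **Semistable models are modular at their exact conductor level.** -/
theorem exact_of_inputs (h3 : LiftingSfStatement 3) (h5 : LiftingSfStatement 5)
    (hN3 : NewInput 3) (hN5 : NewInput 5) (hOrd : OrdInput 3) (W : WeierstrassCurve ℤ)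
    (hΔ : W.Δ ≠ 0) (hW : W.IsSemistableModel) : Mlc1IsModularModelOfExactConductorLevel W :=
  exact_of_modSf hN3 hN5 hW (modSf_of_inputs h3 h5 hN3 hOrd W hΔ hW)

/-- **Semistable models are modular at the conductor level.** -/
theorem conductorLevel_of_inputs (h3 : LiftingSfStatement 3) (h5 : LiftingSfStatement 5)
    (hN3 : NewInput 3) (hN5 : NewInput 5) (hOrd : OrdInput 3)
    (W : WeierstrassCurve ℤ) (hΔ : W.Δ ≠ 0) (hW : W.IsSemistableModel) :
    W.IsModularModelOfLevel W.conductorLevel := by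
  obtain ⟨M, -, hM, hiff, hmod⟩ := exact_of_inputs h3 h5 hN3 hN5 hOrd W hΔ hW
  have e : M = W.conductorLevel :=
    (Nat.Squarefree.ext_iff hM W.squarefree_conductorLevel).mpr fun r hr => by
      rw [hiff r hr, W.prime_dvd_conductorLevel_iff hΔ hr]
  exact e ▸ hmod

/-- **Residual modularity at three at a level cube free away from three.** -/
theorem residuallyModular_three_of_inputs (h3L : LiftingSfStatement 3) (h5 : LiftingSfStatement 5)
    (hN3 : NewInput 3) (hN5 : NewInput 5) (hOrd : OrdInput 3)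
    (W : WeierstrassCurve ℤ) (hΔ : W.Δ ≠ 0) (hW : W.IsSemistableModel) :
    ∃ M : ℕ, 0 < M ∧ W.IsResiduallyModularOfLevel 3 M ∧
      (∀ q : ℕ, q.Prime → q ≠ 3 → ¬ q ^ 3 ∣ M) ∧
      (3 ^ 2 ∣ M →
        ∀ A : ValuationSubring (AlgebraicClosure ℚ), A.LiesOverPrime 3 →
          ∀ x : Submodule.torsionBy ℤ
              ((W.map (Int.castRingHom ℚ))⁄(AlgebraicClosure ℚ)).Point (3 : ℕ),
            (∀ σ ∈ A.inertiaSubgroupIn ℚ, σ • x = x) → x = 0) := by
  obtain ⟨M, hM0, hM, -, f, hf, hfa⟩ := exact_of_inputs h3L h5 hN3 hN5 hOrd W hΔ hW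
  obtain ⟨𝔪, hmax, h3m⟩ := FLTPrelim.exists_maximalIdeal_natCast_prime_mem Nat.prime_three
  have hsq : ∀ q : ℕ, q.Prime → ¬ q ^ 2 ∣ M := fun q hq h =>
    hq.ne_one (Nat.isUnit_iff.mp (hM q (by rwa [← sq])))
  refine ⟨M, hM0, ⟨f, 𝔪, hf, hmax, h3m, fun ℓ hℓ hgood hℓM _ => ⟨(W.apOfModel ℓ : ℤ), ?_, ?_⟩⟩,
    fun q hq _ h => hsq q hq ((pow_dvd_pow q (by norm_num)).trans h),
    fun h => absurd h (hsq 3 Nat.prime_three)⟩
  · push_cast
    exact (hfa ℓ hℓ hgood hℓM).symm
  · rw [sub_self]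
    exact zero_mem _

end Fermat.Top.Rows

end
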