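import Fermat.Agent.GR.RT.Lift.Base
import Fermat.Agent.GR.RT.Lift.BaseAux
import Fermat.Agent.GR.RT.Lift.Agree
import Fermat.Agent.Top.Rows.Inputs
import Fermat.Agent.GR.RT.CharInputProof
import Fermat.Agent.RED.Flat.GammaH
import Fermat.Agent.GR.AttachProof.Main

/-!
# Level lowering for every odd prime, whether or not it divides the level

An auxiliary prime `r` with `tr² ≠ (1 + r)²` lets Mazur's principle and the patching argument remove
all residually unramified primes other than `p`; afterwards `r` itself leaves the level, since no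
system can be new there.

`lowering_all`; the rows on semistable curves use it through `LowerCurve`.
-/

set_option autoImplicit false

noncomputable section

open IsLocalRing

namespace Fermat.Top.Rows

open Fermat.GR.RT

local notation "Γℚ" => (AlgebraicClosure ℚ ≃ₐ[ℚ] AlgebraicClosure ℚ)

variable {p : ℕ} [hp : Fact p.Prime] {rb : Γℚ →* GL (Fin 2) (ZMod p)}

/-- **The auxiliary prime leaves the level.** -/
theorem modularOf_of_mul_aux (h2 : 2 < p) (hA : AttachInput p) (hN : NewInput p)
    (hrb : IsSemistableResidual p rb) {M r : ℕ} (hr : IsAuxPrime p rb r) (hrM : ¬ r ∣ M)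
    (h : ModularOf p rb (M * r)) : ModularOf p rb M := by
  classical
  have hM : M ≠ 0 := fun e => by simpa [e] using h.1.ne'
  have : NeZero M := ⟨hM⟩
  have : NeZero (M * r) := ⟨h.1.ne'⟩
  obtain ⟨T, hT⟩ := Fermat.CFT.exists_finset_map_inertia_eq_one rb hrb.isOpen_ker
  set B : ℕ := M * r * p * ∏ t ∈ T.filter Nat.Prime, t with hBdef
  have hB : B ≠ 0 := mul_ne_zero (mul_ne_zero h.1.ne' hp.out.ne_zero)
    (Finset.prod_ne_zero_iff.mpr fun t ht => (Finset.mem_filter.mp ht).2.ne_zero)
  have hunr : ∀ i : GoodIx B, IsResUnramified p rb (goodPr B i) := fun i P hP σ hσ =>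
    hT _ i.1.2 (fun hmem => i.2 (Dvd.dvd.mul_left
      (Finset.dvd_prod_of_mem _ (Finset.mem_filter.mpr ⟨hmem, i.1.2⟩)) _)) P hP σ hσ
  -- an eigen system of level `M r` congruent to `rb` outside `B`, and its representation
  obtain ⟨O, i1, i2, i3, i4, i5, i6, hpO, -, -⟩ := exists_coeffRing p
  obtain ⟨x, hx, hxc⟩ := exists_congruent_of_modularOf (σ := GoodIx B) (pr := goodPr B) hpO h
    (fun i => ⟨fun hd => i.2 ((hd.mul_right p).mul_right _),
      fun e : ((i.1 : Nat.Primes) : ℕ) = p => i.2 (by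
        rw [e]; exact (dvd_mul_left p (M * r)).mul_right _),
      hunr i⟩) (theta rb hpO B) (resCast hpO)
    (fun i P hP φ hφ => resSys_eq (resCast hpO) i (hunr i) P hP φ hφ)
    fun i => ⟨_, Fermat.CFT.placeAt_spec i.1, frobOf i.1, frobOf_spec i.1⟩
  obtain ⟨⟨O', _⟩, y, hy, j, -, hjy⟩ :=
    exists_dvr_point (M * r) ⊤ O hx
  have hres := isResPoint_of_congruent hpO (resCast hpO) (e := 0)
    (fun u => Subgroup.mem_top _) hxc hy j hjy
  obtain ⟨ρr, -, hattr, -, -, -, htr, -, -⟩ :=
    hres.exists_rep_of_det hrb.isOpen_ker hrb.det_eq (by omega) hA (Subgroup.mem_top _) hB hunr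
  set c : ZMod p →+* ResidueField O' := (ResidueField.map (algebraMap O O')).comp (resCast hpO)
  have hrB : r ∣ B := ((dvd_mul_left r M).mul_right p).mul_right _
  by_cases hold : IsOldAt (M * r) ⊤ y r
  -- old at `r`: the system of level `M` is congruent
  · obtain ⟨K', hK'0, hd, hK, y', h', -, -⟩ := hres.exists_old hrB hold
    have := hK'0
    obtain rfl : K' = M := Nat.eq_of_mul_eq_mul_right hr.prime.pos hK
    rw [Subgroup.map_top_of_surjective _ (ZMod.unitsMap_surjective hd)] at h'
    obtain ⟨r', -, hatt', -, -, -, htr', -, -⟩ :=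
      h'.exists_rep_of_det hrb.isOpen_ker hrb.det_eq (by omega) hA (Subgroup.mem_top _) hB hunr
    refine modularOf_of_point h'.point h'.mem c fun ℓ hℓ hℓK hℓp _ P hP φ hφ => ?_
    have hℓ' : ¬ ℓ ∣ K' * p := fun hd' => (hℓ.dvd_mul.mp hd').elim hℓK fun e =>
      hℓp ((Nat.prime_dvd_prime_iff_eq hℓ hp.out).mp e)
    have hev : eVal y' ℓ = 1 := by
      rw [eVal, dif_pos (hℓ.coprime_iff_not_dvd.mpr hℓK), h'.point.dia_eq_one (Subgroup.mem_top _)]
    rw [← htr' φ, (hatt'.frobenius ℓ hℓ hℓ' P hP φ hφ).1, hev, mul_one]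
  -- new at `r` would give `tr² = (1 + r)²`
  · exfalso
    obtain ⟨A, hA'⟩ := Fermat.CFT.exists_place hr.prime
    obtain ⟨-, hnew⟩ := hN (M * r) ⊤ (Subgroup.mem_top _) r hr.prime hr.ne M rfl hrM
      (fun u _ => Subgroup.mem_top u) O' hres.mem y hres.point ρr hattr A hA'
    obtain ⟨φ, hφ⟩ := Fermat.CFT.exists_isFrobeniusAt hr.prime hA'
    obtain ⟨u, hu⟩ := ZMod.unitsMap_surjective (dvd_mul_right M r)
      (ZMod.unitOfCoprime r (hr.prime.coprime_iff_not_dvd.mpr hrM))
    have hu' : ((u : ZMod (M * r)).val : ZMod M) = (r : ZMod M) := by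
      rw [ZMod.natCast_val, ← ZMod.unitsMap_val (dvd_mul_right M r), hu, ZMod.coe_unitOfCoprime]
    have he := congrArg (residue O') (hnew hold φ hφ u hu')
    rw [map_pow, htr, map_mul, hres.residue_dia, one_mul, map_pow, map_add, map_natCast,
      map_one] at he
    refine hr.trace A hA' φ hφ (c.injective ?_)
    rw [map_pow, map_pow, map_add, map_natCast, map_one, he, add_comm]

/-- **Level lowering** at an unramified prime `q ≠ p`, to a level dividing `M / q`. -/
theorem lowering_all (h2 : 2 < p) (hrb : IsSemistableResidual p rb) {M q : ℕ} (hM : Squarefree M)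
    (hq : q.Prime) (hqp : q ≠ p) (hqM : q ∣ M) (hu : IsResUnramified p rb q)
    (hmod : ModularOf p rb M) : ∃ d : ℕ, d ∣ M / q ∧ ModularOf p rb d := by
  classical
  obtain ⟨r, hrnot, hr⟩ := auxPrimeStatement p h2 rb hrb (insert q M.primeFactors)
  obtain ⟨N, hNsq, hrN, hNM, hmodN, hprimes⟩ :=
    baseStatement_of_inputs (attachInput p) (newInput p) (charInput p)
      (Fermat.RED.Flat.flatInput p) (ordInput p) (mulPrimeStatement p) h2 rb hrb M r hM hr hmod
  obtain ⟨d, hd⟩ := hrN
  rw [mul_comm] at hd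
  subst hd
  have hrd : ¬ r ∣ d := fun h => hr.prime.ne_one
    (Nat.isUnit_iff.mp (hNsq r (Nat.mul_dvd_mul_right h r)))
  refine ⟨d, ?_, modularOf_of_mul_aux h2 (attachInput p) (newInput p) hrb hr hrd hmodN⟩
  have hdM : d ∣ M := Nat.dvd_of_mul_dvd_mul_right hr.prime.pos hNM
  have hqd : ¬ q ∣ d := fun h => by
    rcases hprimes q hq (h.mul_right r) with e | e | e
    · exact hqp e
    · exact hrnot (e ▸ Finset.mem_insert_self q _)
    · exact e hu
  refine Nat.Coprime.dvd_of_dvd_mul_left (hq.coprime_iff_not_dvd.mpr hqd).symm ?_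
  rwa [Nat.mul_div_cancel' hqM]

/-- A modular level may be replaced by a squarefree multiple. -/
theorem modularOf_of_dvd {d N : ℕ} (hN : Squarefree N) (hdN : d ∣ N) (h : ModularOf p rb d) :
    ModularOf p rb N := by
  induction hk : N / d using Nat.strong_induction_on generalizing d with
  | _ k ih =>
    by_cases h1 : k = 1
    · rw [← hk] at h1
      rw [← Nat.mul_div_cancel' hdN, h1, mul_one]
      exact h
    obtain ⟨e, he⟩ := hdN
    have hek : e = k := by rw [← hk, he, Nat.mul_div_cancel_left _ h.1]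
    obtain ⟨s, hs, hse⟩ := Nat.exists_prime_and_dvd (hek ▸ h1)
    obtain ⟨e', rfl⟩ := hse
    have hsd : ¬ s ∣ d := fun hsd => hs.ne_one (Nat.isUnit_iff.mp (hN s (by
      rw [he]; exact mul_dvd_mul hsd (dvd_mul_right s e'))))
    have h0 : e' ≠ 0 := fun e0 => hN.ne_zero (by rw [he, e0, mul_zero, mul_zero])
    refine ih e' (by rw [← hek]; exact lt_mul_left (Nat.pos_of_ne_zero h0) hs.one_lt)
      ⟨e', by rw [he, mul_assoc]⟩ (mulPrimeStatement p rb d s hs hsd h) ?_
    rw [he, ← mul_assoc, Nat.mul_div_cancel_left _ (Nat.mul_pos h.1 hs.pos)]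

end Fermat.Top.Rows

end
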