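import Fermat.Agent.Top.Endgame
import Fermat.Agent.GR.RT.TorsionModular
import Fermat.Prelude.Def_FreyPackage_IsConductorLevel

/-!
# Modularity of the torsion of the Frey curve, in two forms

`modularOf_of_modularRep` and its converse; `Lowering` works through them.
-/

set_option autoImplicit false

noncomputable section

open WeierstrassCurve WeierstrassCurve.Affine Fermat.SW Fermat.GR.RT

namespace Fermat.Top.Rows

local notation "ℚbar" => AlgebraicClosure ℚ
local notation "Γℚ" => (AlgebraicClosure ℚ ≃ₐ[ℚ] AlgebraicClosure ℚ)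

variable (P : FreyPackage)

/-- An integral model of the Frey curve has nonzero discriminant and the same torsion. -/
theorem torEquiv_of_isIntegralModelOf {W : WeierstrassCurve ℤ}
    (hW : W.IsIntegralModelOf P.freyCurve) :
    W.Δ ≠ 0 ∧ TorEquiv P.p P.freyCurveInt W := by
  obtain ⟨C, hC⟩ := hW
  rw [← Fermat.EC.Frey.map_freyCurveInt] at hC
  have h0 : (modQ P.freyCurveInt).Δ ≠ 0 := by
    rw [WeierstrassCurve.map_Δ, eq_intCast]
    exact Int.cast_ne_zero.mpr (Fermat.EC.Frey.Δ_ne_zero P)
  refine ⟨fun h => ?_, exists_equiv_of_change _ _ h0 C hC P.pp.one_le⟩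
  have h1 := congrArg WeierstrassCurve.Δ hC
  rw [variableChange_Δ, WeierstrassCurve.map_Δ, WeierstrassCurve.map_Δ, h, map_zero] at h1
  rcases mul_eq_zero.mp h1 with h2 | h2
  · exact pow_ne_zero _ (Units.ne_zero _) h2
  · exact h0 (by rw [WeierstrassCurve.map_Δ]; exact h2)

variable [Fact P.p.Prime]

/-- The torsion representation of the Frey curve. -/
abbrev freyRep : Γℚ →* GL (Fin 2) (ZMod P.p) :=
  Tors.tRep (p := P.p) P.freyCurveInt (Fermat.EC.Frey.Δ_ne_zero P)

/-- The torsion representation of the Frey curve, when irreducible, is semistable as a residual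
one. -/
theorem isSemistableResidual_freyRep
    (hirr : Point.GaloisRepIsIrreducible (K := ℚbar) ℚ P.freyCurve P.p) :
    IsSemistableResidual P.p (freyRep P) :=
  Tors.isSemistableResidual_tRep _ (frey_isSemistableModel P) (by have := P.hp5; omega)
    (surjective_frey P hirr)

/-- Inertia at an odd prime other than `p` acts trivially on the torsion. -/
theorem isResUnramified_freyRep {q : ℕ} (hq : q.Prime) (hq2 : q ≠ 2) (hqp : q ≠ P.p) :
    IsResUnramified P.p (freyRep P) q := fun _ hA _ hσ =>
  Tors.unramified_tRep _ (frey_isSemistableModel P) (by have := P.hp5; omega) hq hqp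
    (Fermat.EC.Frey.dvd_padicValInt_Δ P hq hq2) hA hσ

/-- **From congruences with the point counts to residual modularity.** -/
theorem modularOf_of_modularRep {N : ℕ} (hN : 0 < N) (hmod : P.ModularRepOfLevel N) :
    ModularOf P.p (freyRep P) N := by
  obtain ⟨f, W, 𝔪, hf, hW, hmax, hpm, hcong⟩ := hmod
  obtain ⟨hΔ, he⟩ := torEquiv_of_isIntegralModelOf P hW
  exact modularOf_of_residuallyModular (Tors.isOpen_ker_tRep _) (Tors.det_tRep _)
    (by have := P.hp5; omega) hΔ
    (fun σ => (Tors.trace_tRep _ σ).trans (galoisTrace_eq_of_torEquiv he σ)) hN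
    ⟨f, 𝔪, hf, hmax, hpm, hcong⟩

/-- **From residual modularity to congruences with the point counts.** -/
theorem modularRep_of_modularOf {N : ℕ} (hmod : ModularOf P.p (freyRep P) N) :
    P.ModularRepOfLevel N := by
  obtain ⟨f, 𝔪, hf, hmax, hpm, hcong⟩ :=
    residuallyModular_of_modularOf _ (by have := P.hp5; omega) hmod
  exact ⟨f, P.freyCurveInt, 𝔪, hf, ⟨1, by rw [one_smul, Fermat.EC.Frey.map_freyCurveInt]⟩, hmax,
    hpm, hcong⟩

end Fermat.Top.Rows

end
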